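import Fermat.Agent.SO.New
import Fermat.Agent.Oldforms.Trace
import Fermat.Agent.X1.HeckePeriod

/-!
# The `q`-new part: cusp forms, homomorphisms and cohomology

Hecke polynomials which kill the integral `q`-new parabolic homomorphisms kill the `q`-new cusp
forms.
-/

set_option autoImplicit false
set_option linter.style.haveILetI false

noncomputable section

namespace Fermat.Agent.SO

open ModularCurve CuspForm CongruenceSubgroup UpperHalfPlane ModularCurve.Period
open Fermat.Agent.HeckePar Fermat.Agent.GalRep Fermat.Agent.Ribet Fermat.Agent.TwHecke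
open Fermat.Agent.S21per Fermat.Agent.Oldforms FermatAgent.HeckeEigen
open Matrix.SpecialLinearGroup
open scoped MatrixGroups ModularForm

variable {m q : ℕ} (D : ALData (m * q) m q) (hm : ¬ q ∣ m)

/-- the matrix `W_D * wMat⁻¹` of `Γ₀(mq)`. -/
def alCmp : SL(2, ℤ) :=
  ⟨!![(q : ℤ) * D.x * wd D.hq hm - D.y * m, D.y - D.x * wb D.hq hm;
      (m : ℤ) * q * (wd D.hq hm - 1), q - m * wb D.hq hm], by
    rw [Matrix.det_fin_two_of]
    have h1 := D.h
    have h2 := wbd D.hq hm
    generalize wb D.hq hm = b at h2 ⊢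
    generalize wd D.hq hm = d at h2 ⊢
    linear_combination ((q : ℤ) * d - m * b) * h1 + h2⟩

theorem alCmp_mem : alCmp D hm ∈ Gamma0 (m * q) := by
  rw [Gamma0_mem]
  have : alCmp D hm 1 0 = (m : ℤ) * q * (wd D.hq hm - 1) := rfl
  rw [this, ZMod.intCast_zmod_eq_zero_iff_dvd]
  push_cast
  exact ⟨_, rfl⟩

theorem intW_eq : D.intW = (alCmp D hm : Matrix (Fin 2) (Fin 2) ℤ) * wMat D.hq hm := by
  have h2 := wbd D.hq hm
  rw [ALData.intW, alCmp, wMat]
  ext i j
  fin_cases i <;> fin_cases j <;> simp [Matrix.mul_apply, Fin.sum_univ_two]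
  · linear_combination (-((q : ℤ) * D.x)) * h2
  · linear_combination (-D.y) * h2
  · linear_combination (-((m : ℤ) * q)) * h2
  · linear_combination (-(q : ℤ)) * h2

/-- the period homomorphism of `w_q f`. -/
theorem periodLin_w [NeZero (m * q)] (f : CuspForm (Gamma0 (m * q)) 2) :
    periodLin (m * q) (D.w 2 f) = wHomA D.hq hm (periodLin (m * q) f) := by
  obtain ⟨F, hF⟩ := exists_goodPrim f
  have h1 : IsPrim (D.w 2 f) (fun τ => F (D.W • τ)) := by
    rw [ALData.coe_w]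
    exact X1.isPrim_smulGL hF.prim D.W D.det_W_pos
  refine AddMonoidHom.ext fun γ => ?_
  obtain ⟨γ, rfl⟩ := Additive.ofMul.surjective γ
  rw [periodLin_apply_of_isPrim h1 γ UpperHalfPlane.I, wHomA_apply]
  set c : Gamma0 (m * q) := ⟨alCmp D hm, alCmp_mem D hm⟩ with hc
  have h2 : D.W * mapGL ℝ (γ : SL(2, ℤ)) =
      mapGL ℝ ((c * wHom D.hq hm γ * c⁻¹ : Gamma0 (m * q)) : SL(2, ℤ)) * D.W := by
    refine ALData.GL_eq_of_int D.val_W (val_mapGL _) (val_mapGL _) D.val_W ?_
    rw [intW_eq D hm, mul_assoc, wHom_spec, ← mul_assoc, ← mul_assoc,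
      ← Matrix.SpecialLinearGroup.coe_mul, ← Matrix.SpecialLinearGroup.coe_mul]
    congr 2
    simp only [hc, Subgroup.coe_mul, Subgroup.coe_inv, inv_mul_cancel_right]
  have h3 : D.W • ((γ : SL(2, ℤ)) • UpperHalfPlane.I) =
      ((c * wHom D.hq hm γ * c⁻¹ : Gamma0 (m * q)) : SL(2, ℤ)) • (D.W • UpperHalfPlane.I) := by
    have e1 : ∀ (g : SL(2, ℤ)) (z : ℍ), g • z = mapGL ℝ g • z := fun _ _ => rfl
    rw [e1, e1, smul_smul, smul_smul, h2]
  rw [h3, ← periodLin_apply_of_isPrim hF.prim, ofMul_mul, ofMul_mul, ofMul_inv, map_add, map_add,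
    map_neg]
  abel

variable [NeZero (m * q)]

omit hm in
theorem heckeOp_of_trN_eq_zero {N M : ℕ} [NeZero N] (D : ALData N M q)
    (f : CuspForm (Gamma0 N) 2) (h1 : D.tr f = 0)
    (h2 : D.tr (D.w 2 f) = 0) : heckeOp N 2 D.qp (D.w 2 f) = -f ∧
      heckeOp N 2 D.qp f = -D.w 2 f := by
  have e1 : D.trN f = 0 := by rw [← D.restr_tr, h1, map_zero]
  have e2 : D.trN (D.w 2 f) = 0 := by rw [← D.restr_tr, h2, map_zero]
  rw [D.trN_apply] at e1 e2
  rw [D.w_w] at e2
  exact ⟨eq_neg_of_add_eq_zero_right e1, eq_neg_of_add_eq_zero_right e2⟩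

/-- the period homomorphism of a `q`-new form is new. -/
theorem isNewHom_periodLin [hqF : Fact q.Prime] (f : CuspForm (Gamma0 (m * q)) 2)
    (h1 : D.tr f = 0) (h2 : D.tr (D.w 2 f) = 0) :
    IsNewHom D.hq hm (periodLin (m * q) f) := by
  obtain ⟨e1, e2⟩ := heckeOp_of_trN_eq_zero D f h1 h2
  have hU : ∀ g : CuspForm (Gamma0 (m * q)) 2, periodLin (m * q) (heckeOp (m * q) 2 D.qp g) =
      (heckeSys (m * q) q).addTransfer (periodLin (m * q) g) := fun g => by
    rw [heckeOp_of_dvd (p := D.qp) D.dvdqN]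
    exact periodLin_heckeULin D.dvdqN g
  refine ⟨?_, ?_⟩
  · rw [← hU, e2, map_neg, periodLin_w D hm]
  · rw [← periodLin_w D hm, ← hU, e1, map_neg]

/-- **Hecke polynomials killing the integral new parabolic classes kill the new cusp forms.** -/
theorem evS_apply_eq_zero_of_new [hqF : Fact q.Prime] {S : Set ℕ} (t : HeckeAlgS S)
    (h : ∀ φ : Additive (Gamma0 (m * q)) →+ ℤ, IsParabolicHom (Gamma0 (m * q)) φ →
      IsNewHom D.hq hm φ → parEval (m * q) S ℤ t φ = 0)
    (f : CuspForm (Gamma0 (m * q)) 2) (h1 : D.tr f = 0) (h2 : D.tr (D.w 2 f) = 0) :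
    (evS (m * q) S t : Module.End ℂ (CuspForm (Gamma0 (m * q)) 2)) f = 0 := by
  refine periodLin_injective ?_
  rw [periodLin_evS, map_zero]
  exact parEval_eq_zero_of_new D.hq hm S t h _ (isParabolicHom_periodLin f)
    (isNewHom_periodLin D hm f h1 h2)

/-- the same at a level which is only propositionally equal to `m * q`. -/
theorem evS_apply_eq_zero_of_new' {N m q : ℕ} [NeZero N] (D : ALData N m q) (hN : N = m * q)
    (hm : ¬ q ∣ m) [hqF : Fact q.Prime] {S : Set ℕ} (t : HeckeAlgS S)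
    (h : ∀ φ : Additive (Gamma0 (m * q)) →+ ℤ, IsParabolicHom (Gamma0 (m * q)) φ →
      IsNewHom D.hq hm φ → parEval (m * q) S ℤ t φ = 0)
    (f : CuspForm (Gamma0 N) 2) (h1 : D.tr f = 0) (h2 : D.tr (D.w 2 f) = 0) :
    (evS N S t : Module.End ℂ (CuspForm (Gamma0 N) 2)) f = 0 := by
  subst hN
  exact evS_apply_eq_zero_of_new D hm t h f h1 h2

/-- **Faithfulness of the Hecke action on the new part of `J₀(mq)[p^∞]`, for a character of the
Hecke algebra which kills everything that is zero on the `q`-new cusp forms.** -/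
theorem exists_faithful_pnew [hqF : Fact q.Prime] [NeZero m] [NeZero q] (S : Set ℕ)
    (W : WD m q) {p : ℕ} (hp : p.Prime)
    (hS : ∀ ℓ : ℕ, ℓ.Prime → ℓ ∣ m * q → ℓ ∈ S) {T : Type*} [CommRing T]
    (π : heckeAlgebra (m * q) 2 S →+* T)
    (hnew : ∀ t : HeckeAlgS S, (∀ f : CuspForm (Gamma0 (m * q)) 2, D.tr f = 0 →
      D.tr (D.w 2 f) = 0 → (evS (m * q) S t : Module.End ℂ (CuspForm (Gamma0 (m * q)) 2)) f = 0) →
        π (evS (m * q) S t) = 0) :
    letI := heckeModuleBar (m * q)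
    ∀ n : ℕ, ∃ k : ℕ, ∀ t : HeckeAlgS S,
      (∀ x ∈ newJ D.hq hm, p ^ k • x = 0 → inclS S t • x = 0) →
        π (evS (m * q) S t) ∈ Ideal.span {(p : T) ^ n} :=
  exists_faithful_new D.hq hm S W hp hS π fun t ht =>
    hnew t fun f h1 h2 => evS_apply_eq_zero_of_new D hm t ht f h1 h2

end Fermat.Agent.SO

end
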