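import Fermat.Agent.SO.Main
import Fermat.Agent.S33.WLevel

/-!
# (SO), unconditional: strict ordinarity of the `p`-new quotient at level `m p`
-/

set_option autoImplicit false
set_option linter.style.haveILetI false

noncomputable section

open ModularCurve CuspForm AlgebraicCurve CongruenceSubgroup
open ModularCurve.Period
open Fermat.Agent.GalRep Fermat.Agent.S33aux Fermat.Agent.HeckePar
open scoped MatrixGroups

namespace Fermat.Agent.SO

variable {m p : ℕ} [NeZero m] [NeZero p] (hp : p.Prime) (hm : ¬ p ∣ m)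

/-- (W3') for the two components of `X_0(m p)`. -/
theorem congU : CongU hp hm := by
  intro P hP _ _ σ hσ j
  exact twoComp_decomposition hp hm hP hσ j

/-- **(SO)**, unconditional: a representation attached to a quotient of the Hecke algebra of level
`m p` which factors through the `p`-new part and is residually ordinary at `p` is strictly
ordinary at `p`. -/
theorem isStrictOrdinaryAt_new (hp2 : p ≠ 2) {S : Finset ℕ}
    (hS : ∀ ℓ : ℕ, ℓ.Prime → ℓ ∣ m * p → ℓ ∈ S)
    {T : Type} [CommRing T] [IsLocalRing T] [IsNoetherianRing T]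
    (hpT : (p : T) ∈ IsLocalRing.maximalIdeal T)
    {π : heckeAlgebra (m * p) 2 (↑S : Set ℕ) →+* T} {ρ : GaloisRepAdic T}
    (hfrob : HasFrobCharpoly π ρ) (habs : ρ.residual.IsAbsolutelyIrreducible)
    (hres : (GaloisRepAdic.ofResidualGaloisRep ρ.residual).IsOrdinaryAt p)
    (hnew : ∀ t : HeckeAlgS (↑S : Set ℕ), (∀ φ : Additive (Gamma0 (m * p)) →+ ℤ,
      IsParabolicHom (Gamma0 (m * p)) φ → (haveI : Fact p.Prime := ⟨hp⟩; IsNewHom hp hm φ) →
        parEval (m * p) (↑S : Set ℕ) ℤ t φ = 0) → π (evS (m * p) (↑S : Set ℕ) t) = 0) :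
    ρ.IsStrictOrdinaryAt p :=
  isStrictOrdinaryAt_of_congU hp hm hp2 (congU hp hm) hS hpT hfrob habs hres hnew

end Fermat.Agent.SO

end
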