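import Fermat.Agent.SO.Equiv
import Fermat.Agent.GalRep.JZ10_ES
import Fermat.Agent.Ribet.NewQ

/-!
# The `q`-new part: faithfulness of the Hecke action relative to the `q`-new quotient
-/

set_option autoImplicit false
set_option linter.style.haveILetI false

noncomputable section

namespace Fermat.Agent.SO

open ModularCurve CuspForm AlgebraicCurve CongruenceSubgroup Fermat.Agent.X0Emb
open Fermat.Agent.HeckePar Fermat.Agent.GalRep Fermat.Agent.Ribet Fermat.Agent.TwHecke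
open ModularCurve.Period
open scoped MatrixGroups

section Hom

variable {m q : ℕ} [hqF : Fact q.Prime] (hq : q.Prime) (hm : ¬ q ∣ m)
  {A B : Type*} [AddCommGroup A] [AddCommGroup B]

/-- homomorphisms with `U_q φ = - w φ` and `U_q w φ = - φ`. -/
def IsNewHom (φ : Additive (Gamma0 (m * q)) →+ A) : Prop :=
  (heckeSys (m * q) q).addTransfer φ = -wHomA hq hm φ ∧
    (heckeSys (m * q) q).addTransfer (wHomA hq hm φ) = -φ

omit hqF in
theorem wHomA_comp (ψ : A →+ B) (φ : Additive (Gamma0 (m * q)) →+ A) :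
    wHomA hq hm (ψ.comp φ) = ψ.comp (wHomA hq hm φ) := rfl

omit hqF in
theorem wHomA_hecke {ℓ : ℕ} [Fact ℓ.Prime] (hℓ : ℓ ≠ q) (φ : Additive (Gamma0 (m * q)) →+ A) :
    wHomA hq hm ((heckeSys (m * q) ℓ).addTransfer φ) =
      (heckeSys (m * q) ℓ).addTransfer (wHomA hq hm φ) := by
  obtain ⟨x, rfl⟩ := (eqvMQ m q A).surjective φ
  rw [← TT_gamma0, ← TT_gamma0, ← eqvMQ_TT, ← eqvMQ_wq, ← eqvMQ_wq, ← eqvMQ_TT,
    wq_heckeH _ hq hm hℓ]

theorem IsNewHom.hecke {ℓ : ℕ} [hℓF : Fact ℓ.Prime] (hℓ : ℓ ≠ q)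
    {φ : Additive (Gamma0 (m * q)) →+ A} (h : IsNewHom hq hm φ) :
    IsNewHom hq hm ((heckeSys (m * q) ℓ).addTransfer φ) := by
  have hcomm : ∀ φ : Additive (Gamma0 (m * q)) →+ A,
      (heckeSys (m * q) q).addTransfer ((heckeSys (m * q) ℓ).addTransfer φ) =
        (heckeSys (m * q) ℓ).addTransfer ((heckeSys (m * q) q).addTransfer φ) := fun φ =>
    LinearMap.congr_fun (opPrime_commute (A := A) (N := m * q) ⟨q, hqF.out⟩ ⟨ℓ, hℓF.out⟩) φ
  refine ⟨?_, ?_⟩
  · rw [hcomm, h.1, map_neg, wHomA_hecke hq hm hℓ]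
  · rw [wHomA_hecke hq hm hℓ, hcomm, h.2, map_neg]

theorem IsNewHom.add {φ ψ : Additive (Gamma0 (m * q)) →+ A} (h : IsNewHom hq hm φ)
    (h' : IsNewHom hq hm ψ) : IsNewHom hq hm (φ + ψ) := by
  refine ⟨?_, ?_⟩
  · rw [map_add, map_add, h.1, h'.1, neg_add]
  · rw [map_add, map_add, h.2, h'.2, neg_add]

theorem IsNewHom.zsmul {φ : Additive (Gamma0 (m * q)) →+ A} (h : IsNewHom hq hm φ) (c : ℤ) :
    IsNewHom hq hm (c • φ) := by
  refine ⟨?_, ?_⟩
  · rw [map_zsmul, map_zsmul, h.1, smul_neg]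
  · rw [map_zsmul, map_zsmul, h.2, smul_neg]

theorem isNewHom_zero : IsNewHom hq hm (0 : Additive (Gamma0 (m * q)) →+ A) :=
  ⟨by rw [map_zero, map_zero, neg_zero], by rw [map_zero, map_zero, neg_zero]⟩

/-- The homomorphisms killed by both traces are new. -/
theorem isNewHom_of_tr [NeZero q]
    {x : HM (m * q) (infl (dvd_mul_right m q) (1 : (ZMod m)ˣ →* ℤˣ)) A}
    (h1 : trd hq hm 1 A x = 0) (h2 : trB 1 A hq hm x = 0) : IsNewHom hq hm (eqvMQ m q A x) := by
  have hw : (TwHecke.wq hq hm 1 A (TwHecke.wq hq hm 1 A x)) = x := by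
    rw [TwHecke.wq_wq]
    have h3 : wt (1 : (ZMod m)ˣ →* ℤˣ) (unitOf m q) = (1 : ℤ) := by simp [wt]
    rw [h3, one_smul]
  refine ⟨?_, ?_⟩
  · rw [← TT_gamma0, ← eqvMQ_TT, heckeU_eq_neg_wq 1 hq hm h2, map_neg, eqvMQ_wq]
  · rw [← TT_gamma0, ← eqvMQ_wq, ← eqvMQ_TT, heckeU_eq_neg_wq 1 hq hm (by
      rw [trB_apply, hw, h1]), hw, map_neg]

section Aux

variable {M C : Type*} [AddCommGroup M] [AddCommGroup C] (Q : Additive (Gamma0 (m * q)) →+ M)

theorem aux_U (ψ : M →+ C) (g : Gamma0 (m * q)) :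
    (heckeSys (m * q) q).addTransfer (ψ.comp Q) (Additive.ofMul g) =
      ψ (∑ x, Q (Additive.ofMul ((heckeSys (m * q) q).coc g x))) := by
  rw [CosetSys.addTransfer_apply, map_sum]
  rfl

omit hqF in
theorem aux_W (ψ : M →+ C) (g : Gamma0 (m * q)) :
    wHomA hq hm (ψ.comp Q) (Additive.ofMul g) =
      ψ (Q (Additive.ofMul (wHom hq hm g))) := rfl

theorem aux_UW (ψ : M →+ C) (g : Gamma0 (m * q)) :
    (heckeSys (m * q) q).addTransfer (wHomA hq hm (ψ.comp Q)) (Additive.ofMul g) =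
      ψ (∑ x, Q (Additive.ofMul (wHom hq hm ((heckeSys (m * q) q).coc g x)))) := by
  rw [CosetSys.addTransfer_apply, map_sum]
  rfl

end Aux

variable (S : Set ℕ)

/-- **Hecke polynomials killing the integral new parabolic classes kill the new parabolic classes
with torsion-free coefficients.** -/
theorem parEval_eq_zero_of_new [NeZero (m * q)] [IsAddTorsionFree A] (t : HeckeAlgS S)
    (h : ∀ φ : Additive (Gamma0 (m * q)) →+ ℤ, IsParabolicHom (Gamma0 (m * q)) φ →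
      IsNewHom hq hm φ → parEval (m * q) S ℤ t φ = 0)
    (φ : Additive (Gamma0 (m * q)) →+ A) (hφ : IsParabolicHom (Gamma0 (m * q)) φ)
    (hnew : IsNewHom hq hm φ) : parEval (m * q) S A t φ = 0 := by
  have hfg : Group.FG (Gamma0 (m * q)) := Fermat.Agent.S22alg.fg_Gamma0 (m * q)
  have hfg' : AddGroup.FG (Additive (Gamma0 (m * q))) := inferInstance
  let M := Additive (Abelianization (Gamma0 (m * q)))
  have hfgA : Group.FG (Abelianization (Gamma0 (m * q))) :=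
    Group.fg_of_surjective (f := Abelianization.of) (Quotient.mk_surjective)
  have hfgM : AddGroup.FG M := GroupFG.iff_add_fg.mp hfgA
  let Q : Additive (Gamma0 (m * q)) →+ M := MonoidHom.toAdditive Abelianization.of
  let φ' : M →+ A := MonoidHom.toAdditiveLeft
    (Abelianization.lift (AddMonoidHom.toMultiplicativeRight φ))
  have hφ' : φ'.comp Q = φ := by
    ext x
    rfl
  obtain ⟨n, c, l, h1, h2⟩ := exists_integral_decomposition φ'
  have h3 : φ = ∑ i, ((zmultiplesHom A) (c i)).comp ((l i).comp Q) := by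
    refine AddMonoidHom.ext fun x => ?_
    rw [← hφ', AddMonoidHom.comp_apply, h1, AddMonoidHom.finsetSum_apply]
    rfl
  have h4 : ∀ i, IsParabolicHom (Gamma0 (m * q)) ((l i).comp Q) := by
    intro i γ hγ
    have h5 := hφ γ hγ
    rw [← hφ'] at h5
    exact h2 _ h5 i
  have e0 : ∀ a b : M, φ' a = φ' b → ∀ i, l i a = l i b := fun a b hab i =>
    sub_eq_zero.mp (by rw [← map_sub]; exact h2 _ (by rw [map_sub, hab, sub_self]) i)
  have h5 : ∀ i, IsNewHom hq hm ((l i).comp Q) := by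
    intro i
    rw [← hφ'] at hnew
    refine ⟨AddMonoidHom.ext fun g => ?_, AddMonoidHom.ext fun g => ?_⟩
    · obtain ⟨g, rfl⟩ := Additive.ofMul.surjective g
      have e1 := DFunLike.congr_fun hnew.1 (Additive.ofMul g)
      rw [AddMonoidHom.neg_apply, aux_U, aux_W, ← map_neg] at e1
      rw [AddMonoidHom.neg_apply, aux_U, aux_W, ← map_neg]
      exact e0 _ _ e1 i
    · obtain ⟨g, rfl⟩ := Additive.ofMul.surjective g
      have e1 := DFunLike.congr_fun hnew.2 (Additive.ofMul g)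
      rw [AddMonoidHom.neg_apply, aux_UW, AddMonoidHom.comp_apply, ← map_neg] at e1
      rw [AddMonoidHom.neg_apply, aux_UW, AddMonoidHom.comp_apply, ← map_neg]
      exact e0 _ _ e1 i
  rw [h3, map_sum]
  refine Finset.sum_eq_zero fun i _ => ?_
  rw [parEval_comp, h _ (h4 i) (h5 i)]
  ext x
  simp

end Hom

section Lattice

variable {m q : ℕ} [NeZero m] [NeZero q] [hqF : Fact q.Prime] (hq : q.Prime) (hm : ¬ q ∣ m)
  (S : Set ℕ) (hqS : q ∈ S)

/-- the lattice of integral new parabolic homomorphisms -/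
def newLat : Submodule ℤ (parabolicHoms ℤ (Gamma0 (m * q)) ℤ) where
  carrier := {φ | IsNewHom hq hm (φ : Additive (Gamma0 (m * q)) →+ ℤ)}
  add_mem' h h' := IsNewHom.add hq hm h h'
  zero_mem' := isNewHom_zero hq hm
  smul_mem' c _ h := IsNewHom.zsmul hq hm h c

omit [NeZero m] [NeZero q] in
theorem mem_newLat {φ : parabolicHoms ℤ (Gamma0 (m * q)) ℤ} :
    φ ∈ newLat hq hm ↔ IsNewHom hq hm (φ : Additive (Gamma0 (m * q)) →+ ℤ) := Iff.rfl

omit [NeZero m] [NeZero q] in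
include hqS in
theorem opLat_mem_newLat (ℓ : {ℓ : Nat.Primes // (ℓ : ℕ) ∉ S})
    (φ : parabolicHoms ℤ (Gamma0 (m * q)) ℤ) (hφ : φ ∈ newLat hq hm) :
    opLat (m * q) S ℓ φ ∈ newLat hq hm := by
  have : Fact (ℓ.1 : ℕ).Prime := ⟨ℓ.1.2⟩
  exact IsNewHom.hecke hq hm (ℓ := (ℓ.1 : ℕ)) (fun h => ℓ.2 (by rw [h]; exact hqS)) hφ

/-- Hecke operators on the lattice of new parabolic homomorphisms -/
def opNew (ℓ : {ℓ : Nat.Primes // (ℓ : ℕ) ∉ S}) : Module.End ℤ (newLat hq hm) :=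
  (opLat (m * q) S ℓ).restrict (opLat_mem_newLat hq hm S hqS ℓ)

theorem opNew_commute (ℓ ℓ' : {ℓ : Nat.Primes // (ℓ : ℕ) ∉ S}) :
    Commute (opNew hq hm S hqS ℓ) (opNew hq hm S hqS ℓ') := by
  refine LinearMap.ext fun φ => Subtype.ext ?_
  exact LinearMap.congr_fun (opLat_commute (m * q) S ℓ ℓ') (φ : parabolicHoms ℤ _ ℤ)

theorem coe_commEval_opNew (t : HeckeAlgS S) (φ : newLat hq hm) :
    ((commEval (opNew hq hm S hqS) (opNew_commute hq hm S hqS) t φ : newLat hq hm) :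
      parabolicHoms ℤ (Gamma0 (m * q)) ℤ) =
      commEval (opLat (m * q) S) (opLat_commute (m * q) S) t φ :=
  commEval_natural (opNew hq hm S hqS) (opNew_commute hq hm S hqS) (opLat (m * q) S)
    (opLat_commute (m * q) S) (f := (newLat hq hm).subtype.toAddMonoidHom) (fun _ _ => rfl) t φ

/-- the new part of `J₀(mq)` -/
def newJ : AddSubgroup (JZero (m * q)) where
  carrier := {x | UJ hq hm x = -QX4.wJ hq hm x ∧ UJ hq hm (QX4.wJ hq hm x) = -x}
  add_mem' := by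
    rintro a b ⟨ha, ha'⟩ ⟨hb, hb'⟩
    exact ⟨by rw [map_add, map_add, ha, hb, neg_add], by rw [map_add, map_add, ha', hb', neg_add]⟩
  zero_mem' := ⟨by rw [map_zero, map_zero, neg_zero], by rw [map_zero, map_zero, neg_zero]⟩
  neg_mem' := by
    rintro a ⟨ha, ha'⟩
    exact ⟨by rw [map_neg, map_neg, ha], by rw [map_neg, map_neg, ha']⟩

omit hqF in
theorem mem_newJ {x : JZero (m * q)} : x ∈ newJ hq hm ↔
    UJ hq hm x = -QX4.wJ hq hm x ∧ UJ hq hm (QX4.wJ hq hm x) = -x := Iff.rfl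

omit hqF in
theorem newJ_UU {x : JZero (m * q)} (hx : x ∈ newJ hq hm) : UJ hq hm (UJ hq hm x) = x := by
  rw [hx.1, map_neg, hx.2, neg_neg]

omit hqF in
theorem newJ_wJ {x : JZero (m * q)} (hx : x ∈ newJ hq hm) : QX4.wJ hq hm x ∈ newJ hq hm := by
  rw [mem_newJ, QX4.wJ_wJ, hx.1]
  exact ⟨hx.2, rfl⟩

omit hqF in
theorem newJ_UJ {x : JZero (m * q)} (hx : x ∈ newJ hq hm) : UJ hq hm x ∈ newJ hq hm := by
  rw [hx.1]
  exact (newJ hq hm).neg_mem (newJ_wJ hq hm hx)

omit hqF in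
theorem newJ_galois (σ : AlgebraicClosure ℚ ≃ₐ[ℚ] AlgebraicClosure ℚ) {x : JZero (m * q)}
    (hx : x ∈ newJ hq hm) : σ • x ∈ newJ hq hm := by
  rw [mem_newJ, UJ_galois, QX4.wJ_galois, UJ_galois, hx.1, hx.2, smul_neg, smul_neg]
  exact ⟨rfl, rfl⟩

omit hqF in
theorem newJ_inclS (hS : ∀ ℓ : ℕ, ℓ.Prime → ℓ ∣ m * q → ℓ ∈ S) (t : HeckeAlgS S)
    {x : JZero (m * q)} (hx : x ∈ newJ hq hm) :
    letI := heckeModuleBar (m * q)
    inclS S t • x ∈ newJ hq hm := by
  letI := heckeModuleBar (m * q)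
  rw [mem_newJ, UJ_inclS hq hm S hS, wJ_inclS hq hm S hS, UJ_inclS hq hm S hS, hx.1, hx.2,
    smul_neg, smul_neg]
  exact ⟨rfl, rfl⟩

section JMap

variable {n : ℕ} (hn : n ≠ 0)

omit hqF [NeZero m] [NeZero q] in
theorem charOf_wHomA [NeZero q] (D : WD m q) (φ : Additive (Gamma0 (m * q)) →+ ℤ) :
    charOf n (wHomA hq hm φ) = D.wChar (Gamma0 (m * q)) (charOf n φ) := by
  rw [wChar_eq hq hm D]
  rfl

/-- the classes of new homomorphisms are new -/
theorem jMap_mem_newJ (D : WD m q) {φ : parabolicHoms ℤ (Gamma0 (m * q)) ℤ}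
    (hφ : φ ∈ newLat hq hm) : jMap (m * q) n hn φ ∈ newJ hq hm := by
  have h1 := jMap_rel hn φ
  have hw := rel_w hq hm D h1
  rw [← charOf_wHomA hq hm D] at hw
  refine ⟨?_, ?_⟩
  · have h2 := rel_U hq hm h1
    rw [← charOf_transfer] at h2
    have h3 := h2.mul hw
    rw [← charOf_add, hφ.1, neg_add_cancel, charOf_zero] at h3
    exact eq_neg_of_add_eq_zero_left (h3.eq_zero (bridge iota (m * q)) hn)
  · have h2 := rel_U hq hm hw
    rw [← charOf_transfer] at h2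
    have h3 := h2.mul h1
    rw [← charOf_add, hφ.2, neg_add_cancel, charOf_zero] at h3
    exact eq_neg_of_add_eq_zero_left (h3.eq_zero (bridge iota (m * q)) hn)

omit hqF in
theorem inclS_jMap (hS : ∀ ℓ : ℕ, ℓ.Prime → ℓ ∣ m * q → ℓ ∈ S) (t : HeckeAlgS S)
    (φ : parabolicHoms ℤ (Gamma0 (m * q)) ℤ) :
    letI := heckeModuleBar (m * q)
    inclS S t • jMap (m * q) n hn φ =
      jMap (m * q) n hn (commEval (opLat (m * q) S) (opLat_commute (m * q) S) t φ) := by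
  letI := heckeModuleBar (m * q)
  induction t using MvPolynomial.induction_on generalizing φ with
  | C a =>
    rw [← MvPolynomial.algebraMap_eq, AlgHom.commutes, AlgHom.commutes, eq_intCast, eq_intCast,
      Module.End.intCast_apply, map_zsmul, Int.cast_smul_eq_zsmul]
  | add p q hp hq =>
    rw [map_add, add_smul, map_add, LinearMap.add_apply, map_add, hp, hq]
  | mul_X p ℓ hp =>
    rw [map_mul, map_mul, commEval_X, Module.End.mul_apply, ← hp, mul_smul]
    congr 1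
    have h1 : inclS S (MvPolynomial.X ℓ) = heckeGen ℓ.1 := by
      rw [inclS, MvPolynomial.rename_X]; rfl
    rw [h1, heckeModuleBar_heckeGen_smul (HeckeComm.heckeOperatorsCommuteBar (m * q))]
    exact heckeOperatorBar_jMap hn ℓ.1 (fun h => ℓ.2 (hS _ ℓ.1.2 h)) φ

end JMap

/-- **Faithfulness of the Hecke action on the new part of `J₀(mq)[p^∞]`.** -/
theorem exists_faithful_new (D : WD m q) {p : ℕ} (hp : p.Prime)
    (hS : ∀ ℓ : ℕ, ℓ.Prime → ℓ ∣ m * q → ℓ ∈ S) {T : Type*} [CommRing T]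
    (π : heckeAlgebra (m * q) 2 S →+* T)
    (hnew : ∀ t : HeckeAlgS S, (∀ φ : Additive (Gamma0 (m * q)) →+ ℤ,
      IsParabolicHom (Gamma0 (m * q)) φ → IsNewHom hq hm φ → parEval (m * q) S ℤ t φ = 0) →
        π (evS (m * q) S t) = 0) :
    letI := heckeModuleBar (m * q)
    ∀ n : ℕ, ∃ k : ℕ, ∀ t : HeckeAlgS S,
      (∀ x ∈ newJ hq hm, p ^ k • x = 0 → inclS S t • x = 0) →
        π (evS (m * q) S t) ∈ Ideal.span {(p : T) ^ n} := by
  letI := heckeModuleBar (m * q)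
  have hqS : q ∈ S := hS q hq (Dvd.intro_left m rfl)
  have hfin : Module.Finite ℤ (parabolicHoms ℤ (Gamma0 (m * q)) ℤ) :=
    Module.Finite.of_injective (parabolicHoms ℤ (Gamma0 (m * q)) ℤ).subtype Subtype.val_injective
  have hfree := free_par (m * q)
  have htf : IsAddTorsionFree (Additive (Gamma0 (m * q)) →+ ℤ) :=
    Function.Injective.isAddTorsionFree (AddMonoidHom.coeFn _ _) DFunLike.coe_injective
  obtain ⟨c, hc⟩ := exists_saturation (opNew hq hm S hqS) (opNew_commute hq hm S hqS) p hp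
  intro n
  refine ⟨n + c, fun t ht => ?_⟩
  have hpm : p ^ (n + c) ≠ 0 := pow_ne_zero _ hp.ne_zero
  have hpz : (((p ^ (n + c) : ℕ) : ℤ)) ≠ 0 := by exact_mod_cast hpm
  obtain ⟨t', ht'⟩ := hc (n + c) t (by
    intro φ
    have h1 := inclS_jMap S hpm hS t (φ : parabolicHoms ℤ (Gamma0 (m * q)) ℤ)
    rw [ht _ (jMap_mem_newJ hq hm hpm D φ.2) (nsmul_jMap hpm _)] at h1
    obtain ⟨ψ, hψ⟩ := exists_parabolic_of_jMap_eq_zero hpm h1.symm
    rw [← coe_commEval_opNew hq hm S hqS] at hψ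
    have hψn : ψ ∈ newLat hq hm := by
      have h2 := (commEval (opNew hq hm S hqS) (opNew_commute hq hm S hqS) t φ).2
      rw [hψ] at h2
      obtain ⟨a, b⟩ := h2
      have hcoe : (((((p ^ (n + c) : ℕ) : ℤ)) • ψ : parabolicHoms ℤ (Gamma0 (m * q)) ℤ) :
        Additive (Gamma0 (m * q)) →+ ℤ) = (((p ^ (n + c) : ℕ) : ℤ)) •
          (ψ : Additive (Gamma0 (m * q)) →+ ℤ) := rfl
      rw [hcoe, map_zsmul, map_zsmul, ← smul_neg] at a
      rw [hcoe, map_zsmul, map_zsmul, ← smul_neg] at b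
      exact ⟨smul_right_injective _ hpz a, smul_right_injective _ hpz b⟩
    refine ⟨⟨ψ, hψn⟩, Subtype.ext ?_⟩
    rw [hψ]
    push_cast
    rfl)
  have hs := hnew (t - (p : HeckeAlgS S) ^ n * t') (by
    intro φ hφ hφn
    have h1 := LinearMap.congr_fun ht' (⟨⟨φ, hφ⟩, hφn⟩ : newLat hq hm)
    rw [Nat.add_sub_cancel] at h1
    have h2 := congrArg (fun z : newLat hq hm =>
      ((z : parabolicHoms ℤ (Gamma0 (m * q)) ℤ) : Additive (Gamma0 (m * q)) →+ ℤ)) h1
    simp only [coe_commEval_opNew, coe_commEval_opLat] at h2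
    rw [map_sub, LinearMap.sub_apply, h2, sub_self])
  rw [map_sub, map_sub, sub_eq_zero, map_mul, map_mul, map_pow, map_pow, map_natCast,
    map_natCast] at hs
  rw [hs]
  exact Ideal.mul_mem_right _ _ (Ideal.subset_span rfl)

end Lattice

end Fermat.Agent.SO

end
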