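import Fermat.Agent.SO.OrdY
import Fermat.Agent.SO.New
import Fermat.Agent.S33.OrdN
import Fermat.Agent.Cofaith.ES
import Fermat.Agent.S37aux.Bare

/-!
# (SO): strict ordinarity of the `p`-new quotient at level `m p`
-/

set_option autoImplicit false
set_option linter.style.haveILetI false

noncomputable section

open ModularCurve CuspForm AlgebraicCurve CongruenceSubgroup
open ModularCurve.Period
open Fermat.Agent.GalRep Fermat.Agent.S33aux Fermat.Agent.HeckePar
open Fermat.Agent.TwoGauss (twoComp)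
open scoped MatrixGroups

namespace Fermat.Agent.SO

section Geo

variable {m p : ℕ} [NeZero m] [NeZero p] (hp : p.Prime) (hm : ¬ p ∣ m)

/-- The congruence between the decomposition group and the powers of `U_p` on the quotient by
the connected part. -/
def CongU : Prop :=
  ∀ (P : ValuationSubring (AlgebraicClosure ℚ)) (hP : P.LiesOverPrime p)
    [Fact p.Prime] [CharP (IsLocalRing.ResidueField P) p],
    ∀ σ ∈ P.decompositionSubgroup ℚ, ∀ j : ℕ, ∃ k : ℕ, ∀ x : JZero (m * p), p ^ j • x = 0 →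
      σ • x - (S33aux.UJ hp hm)^[k] x ∈ (twoComp hp hm hP).WSub

theorem UJ_eq : UJ hp hm = S33aux.UJ hp hm := rfl

/-- `W` is stable under the decomposition group. -/
theorem smul_mem_WSub {P : ValuationSubring (AlgebraicClosure ℚ)} (hP : P.LiesOverPrime p)
    [Fact p.Prime] [CharP (IsLocalRing.ResidueField P) p] {σ : GQ}
    (hσ : σ ∈ P.decompositionSubgroup ℚ) {x : JZero (m * p)}
    (hx : x ∈ (twoComp hp hm hP).WSub) : σ • x ∈ (twoComp hp hm hP).WSub := by
  have h := TwoGauss.act_mkData hp hm hP (GoodRed.degThm_res hp hP (NeZero.ne m) hm)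
    (GoodRed.genus_le_all hp hP m hm)
    (TwoGauss.residueCompat_of_decomposition (⟨σ, hσ⟩ : P.decompositionSubgroup ℚ))
  rw [galois_smul_pic0_def]
  exact TwoComp.Data.ActS.smul_mem_WSub (D := twoComp hp hm hP) h hx

/-- inertia acts trivially modulo `W`. -/
theorem sub_mem_WSub {P : ValuationSubring (AlgebraicClosure ℚ)} (hP : P.LiesOverPrime p)
    [Fact p.Prime] [CharP (IsLocalRing.ResidueField P) p] {τ : GQ}
    (hτ : τ ∈ P.inertiaSubgroupIn ℚ) {j : ℕ} {x : JZero (m * p)} (hx : p ^ j • x = 0) :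
    τ • x - x ∈ (twoComp hp hm hP).WSub := by
  haveI : FF.IsFF (AlgebraicClosure ℚ) (modularFunctionFieldBar (m * p)) := TwoGauss.isFF_m
  have h := (TwoGauss.act_mkData_inertia hp hm hP (GoodRed.degThm_res hp hP (NeZero.ne m) hm)
    (GoodRed.genus_le_all hp hP m hm) hτ).toAct_id
  rw [galois_smul_pic0_def]
  exact TwoComp.Data.Act.sub_mem_WSub (D := twoComp hp hm hP) hp.pos h hx

/-- the geometric input on the new part: (ORD-N). -/
theorem geoInput_new {P : ValuationSubring (AlgebraicClosure ℚ)} (hP : P.LiesOverPrime p)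
    [Fact p.Prime] [CharP (IsLocalRing.ResidueField P) p] (S : Set ℕ) :
    letI := heckeModuleBar (m * p)
    GeoInput p S (JZero (m * p)) P ((twoComp hp hm hP).WSub ⊓ newJ hp hm)
      {QX4.wJ hp hm} := by
  letI := heckeModuleBar (m * p)
  intro X hX0 hXW hXp hXG hXH hXΦ _
  refine ⟨X, le_rfl, hX0, hXG, hXH, fun τ hτ a ha x hx => ?_⟩
  have hXw : ∀ x ∈ X, QX4.wJ hp hm x ∈ X := fun x hx => hXΦ _ rfl x hx
  have hU : ∀ x ∈ X, S33aux.UJ hp hm x = -QX4.wJ hp hm x := fun x hx => (hXW hx).2.1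
  refine ordN_twoComp hp hm hP (X := (X : Set (JZero (m * p)))) ?_ hXp hXw (fun x hx => ?_)
    (fun x hx y hy hxy => ?_) (fun x hx => (hXW hx).1) hτ ha hx
  · exact (Cofaith.finite_torsion_set (m * p) hp.ne_zero).subset fun x hx => hXp x hx
  · rw [hU x hx]
    exact X.neg_mem (hXw x hx)
  · rw [hU x hx, hU y hy, neg_inj] at hxy
    have h2 := congrArg (QX4.wJ hp hm) hxy
    rwa [QX4.wJ_wJ, QX4.wJ_wJ] at h2

end Geo

variable {m p : ℕ} [NeZero m] [NeZero p] (hp : p.Prime) (hm : ¬ p ∣ m)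

theorem esInput {p : ℕ} (hp : p.Prime) (S : Set ℕ) (N : ℕ) [NeZero N] (hS : ∀ ℓ : ℕ, ℓ.Prime → ℓ ∣ N → ℓ ∈ S) :
    letI := heckeModuleBar N
    haveI := Cofaith.smulCommClass_JZero N
    ESInput N p S (JZero N) := by
  letI := heckeModuleBar N
  haveI := Cofaith.smulCommClass_JZero N
  exact Cofaith.esInput_JZero N hp S hS
    (Fermat.Agent.S37aux.specializationExists_of N p
      (Fermat.Agent.HeckeComm.heckeOperatorsCommuteBar N)
      (fun ℓ hℓ hN A hA => Fermat.Agent.S37aux.bareRed N ℓ hℓ A hA hN)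
      (Fermat.Agent.Cofaith.smulCommClass_JZero N))

/-- **(SO)**: a representation attached to a quotient of the Hecke algebra of level `m p` which
factors through the `p`-new part, residually ordinary, is strictly ordinary at `p`. -/
theorem isStrictOrdinaryAt_of_congU (hp2 : p ≠ 2) (hU : CongU hp hm) {S : Finset ℕ}
    (hS : ∀ ℓ : ℕ, ℓ.Prime → ℓ ∣ m * p → ℓ ∈ S)
    {T : Type} [CommRing T] [IsLocalRing T] [IsNoetherianRing T]
    (hpT : (p : T) ∈ IsLocalRing.maximalIdeal T)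
    {π : heckeAlgebra (m * p) 2 (↑S : Set ℕ) →+* T} {ρ : GaloisRepAdic T}
    (hfrob : HasFrobCharpoly π ρ) (habs : ρ.residual.IsAbsolutelyIrreducible)
    (hres : (GaloisRepAdic.ofResidualGaloisRep ρ.residual).IsOrdinaryAt p)
    (hnew : ∀ t : HeckeAlgS (↑S : Set ℕ), (∀ φ : Additive (Gamma0 (m * p)) →+ ℤ,
      IsParabolicHom (Gamma0 (m * p)) φ → (haveI : Fact p.Prime := ⟨hp⟩; IsNewHom hp hm φ) →
        parEval (m * p) (↑S : Set ℕ) ℤ t φ = 0) → π (evS (m * p) (↑S : Set ℕ) t) = 0) :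
    ρ.IsStrictOrdinaryAt p := by
  haveI : Fact p.Prime := ⟨hp⟩
  letI := heckeModuleBar (m * p)
  haveI := Cofaith.smulCommClass_JZero (m * p)
  have hS' : ∀ ℓ : ℕ, ℓ.Prime → ℓ ∣ m * p → ℓ ∈ (↑S : Set ℕ) := fun ℓ h1 h2 => by
    simpa using hS ℓ h1 h2
  have hJ : ESInput (m * p) p (↑S : Set ℕ) (JZero (m * p)) := esInput hp _ (m * p) hS'
  obtain ⟨D⟩ := Ribet.exists_WD ((Nat.Prime.coprime_iff_not_dvd hp).mpr hm)
  refine isStrictOrdinaryAt_of_newY hJ hp hp2 (hS p hp (Dvd.intro_left m rfl)) hpT hS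
    (Cofaith.finite_torsion_set (m * p) hp.ne_zero) hfrob habs hres {QX4.wJ hp hm} ?_
    (newJ hp hm) (fun g x hx => newJ_galois hp hm g hx)
    (fun t x hx => newJ_inclS hp hm (↑S : Set ℕ) hS' t hx) ?_
    (exists_faithful_new hp hm (↑S : Set ℕ) D hp hS' π hnew) (UJ hp hm)
    (fun x hx => newJ_UU hp hm hx) fun P hP => ?_
  · rintro w rfl t x
    exact wJ_inclS hp hm (↑S : Set ℕ) hS' t x
  · rintro w rfl x hx
    exact newJ_wJ hp hm hx
  · haveI : CharP (IsLocalRing.ResidueField P) p := TwoGauss.charP_res hp hP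
    exact ⟨(twoComp hp hm hP).WSub, fun g hg x hx => smul_mem_WSub hp hm hP hg hx,
      fun τ hτ j x hx => sub_mem_WSub hp hm hP hτ hx, geoInput_new hp hm hP _,
      fun σ hσ j => hU P hP σ hσ j⟩

end Fermat.Agent.SO

end
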