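import Fermat.Agent.Ribet.Wq
import Fermat.Agent.QX4.Commute
import Fermat.Agent.GalRep.JZ5_RelHecke
import Fermat.Agent.TwoGauss.Relation

/-!
# The Atkin--Lehner involution and the relation between torsion classes and characters
-/

set_option autoImplicit false

open UpperHalfPlane Function Filter Topology ModularForm CongruenceSubgroup Asymptotics
open Matrix.SpecialLinearGroup
open scoped Manifold MatrixGroups

noncomputable section

namespace Fermat.Agent.SO

open Fermat.Agent.X0Emb Fermat.Agent.ModFun AlgebraicCurve ModularCurve Fermat.Agent.HeckePar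
open Fermat.Agent.GalRep Fermat.Agent.TwoGauss Fermat.Agent.Ribet

local notation "K" => AlgebraicClosure ℚ

section Poly

variable {N : ℕ} [NeZero N]

/-- the Laurent series of a polynomial in the `j (q ^ d)` -/
def serP (σ : Dv N → Dv N) (P : MvPolynomial (Dv N) K) : LaurentSeries K :=
  MvPolynomial.aeval (fun d : Dv N => jd K (σ d).1) P

/-- the function of a polynomial in the `j (d τ)` -/
def funP (ι : K →+* ℂ) (σ : Dv N → Dv N) (P : MvPolynomial (Dv N) K) (τ : ℍ) : ℂ :=
  MvPolynomial.aeval (fun d : Dv N => JLevelOne.jFun (aff (σ d).1 0 1 τ)) (MvPolynomial.map ι P)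

theorem coeffMap_serP (ι : K →+* ℂ) (σ : Dv N → Dv N) (P : MvPolynomial (Dv N) K) :
    coeffMap ι (serP σ P) =
      MvPolynomial.aeval (fun d : Dv N => jd ℂ (σ d).1) (MvPolynomial.map ι P) := by
  rw [serP]
  induction P using MvPolynomial.induction_on with
  | C a =>
    simp only [MvPolynomial.map_C, MvPolynomial.aeval_C]
    rw [algebraMap_laurentSeries_eq_single, algebraMap_laurentSeries_eq_single, coeffMap_single]
  | add P Q hP hQ => simp only [map_add, hP, hQ]
  | mul_X P d hP =>
    simp only [map_mul, hP, MvPolynomial.aeval_X, MvPolynomial.map_X]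
    rw [coeffMap_jd]

theorem lexp_funP (ι : K →+* ℂ) (σ : Dv N → Dv N) (P : MvPolynomial (Dv N) K) :
    LExp 1 (funP ι σ P) (coeffMap ι (serP σ P)) := by
  rw [coeffMap_serP]
  exact lexp_evFun σ _

/-- Elements of the function field are quotients of polynomials in the `j (q ^ d)`. -/
theorem exists_serP (y : modularFunctionFieldBar N) : ∃ P Q : MvPolynomial (Dv N) K,
    serP id Q ≠ 0 ∧ (y : LaurentSeries K) * serP id Q = serP id P := by
  have hy : (y : LaurentSeries K) ∈ FB K N := y.2
  rw [FB_eq_adjoin_range, IntermediateField.mem_adjoin_iff_div,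
    Algebra.adjoin_range_eq_range_aeval] at hy
  obtain ⟨r, ⟨P, hP⟩, s, ⟨Q, hQ⟩, hrs⟩ := hy
  have hP' : serP id P = r := hP
  have hQ' : serP id Q = s := hQ
  by_cases h0 : s = 0
  · refine ⟨0, 1, ?_, ?_⟩
    · rw [serP, map_one]; exact one_ne_zero
    · rw [hrs, h0, div_zero, zero_mul, serP, map_zero]
  · exact ⟨P, Q, by rw [hQ']; exact h0, by rw [hrs, hQ', hP', div_mul_cancel₀ _ h0]⟩

theorem coe_aeval_jdB (σ : Dv N → Dv N) (P : MvPolynomial (Dv N) K) :
    ((MvPolynomial.aeval (fun d : Dv N => jdB K N (σ d)) P : modularFunctionFieldBar N) :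
      LaurentSeries K) = serP σ P :=
  MvPolynomial.comp_aeval_apply (fun d : Dv N => jdB K N (σ d)) (modularFunctionFieldBar N).val P

theorem serP_mem (σ : Dv N → Dv N) (P : MvPolynomial (Dv N) K) :
    serP σ P ∈ modularFunctionFieldBar N := by
  rw [← coe_aeval_jdB]
  exact (MvPolynomial.aeval (fun d : Dv N => jdB K N (σ d)) P : modularFunctionFieldBar N).2

end Poly

section Wq

variable {m q : ℕ} [NeZero m] [NeZero q] (hq : q.Prime) (hm : ¬ q ∣ m)

theorem coe_wq_serP (P : MvPolynomial (Dv (m * q)) K) :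
    ((wq hq hm ⟨serP id P, serP_mem id P⟩ : modularFunctionFieldBar (m * q)) :
      LaurentSeries K) = serP (swapD q m hq hm) P := by
  have h1 : (⟨serP id P, serP_mem id P⟩ : modularFunctionFieldBar (m * q)) =
      MvPolynomial.aeval (fun d : Dv (m * q) => jdB K (m * q) (id d)) P :=
    Subtype.ext (coe_aeval_jdB id P).symm
  have h2 : wq hq hm (MvPolynomial.aeval (fun d : Dv (m * q) => jdB K (m * q) (id d)) P) =
      MvPolynomial.aeval (fun d : Dv (m * q) => jdB K (m * q) (swapD q m hq hm d)) P := by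
    have h3 := MvPolynomial.comp_aeval_apply (fun d : Dv (m * q) => jdB K (m * q) (id d))
      ((wq hq hm : modularFunctionFieldBar (m * q) ≃ₐ[K] modularFunctionFieldBar (m * q)) :
        modularFunctionFieldBar (m * q) →ₐ[K] modularFunctionFieldBar (m * q)) P
    have h4 : (fun d : Dv (m * q) => ((wq hq hm : modularFunctionFieldBar (m * q) ≃ₐ[K]
        modularFunctionFieldBar (m * q)) :
        modularFunctionFieldBar (m * q) →ₐ[K] modularFunctionFieldBar (m * q))
        (jdB K (m * q) (id d))) = fun d => jdB K (m * q) (swapD q m hq hm d) :=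
      funext fun d => wq_jdB hq hm d
    rw [h4] at h3
    exact h3
  rw [h1, h2, coe_aeval_jdB]

variable (D : WD m q)

omit [NeZero m] in
theorem exists_act_eq {x y : ℤ} (h : x * q - y * m = 1) : ∃ γ ∈ Gamma0 (m * q),
    ∀ τ : ℍ, D.act τ = γ • atkW x y h τ := by
  refine ⟨D.A * (mk2 x y m q h)⁻¹, ?_, fun τ => ?_⟩
  · rw [Gamma0_mem]
    have h1 : (D.A * (mk2 x y m q h)⁻¹ : SL(2, ℤ)) 1 0 = m * q * (D.c - D.e) := by
      rw [Matrix.SpecialLinearGroup.coe_mul, Matrix.SpecialLinearGroup.coe_inv,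
        Matrix.adjugate_fin_two]
      simp [Matrix.mul_apply, Fin.sum_univ_two, WD.A, mk2]
      ring
    rw [h1, ZMod.intCast_zmod_eq_zero_iff_dvd]
    push_cast
    exact ⟨_, rfl⟩
  · rw [atkW, mul_smul, inv_smul_smul]
    rfl

omit [NeZero m] in
theorem funP_act (ι : K →+* ℂ) [NeZero (m * q)] (P : MvPolynomial (Dv (m * q)) K) (τ : ℍ) :
    funP ι id P (D.act τ) = funP ι (swapD q m hq hm) P τ := by
  obtain ⟨x, y, hxy⟩ := exists_bezout hq hm
  have h : x * q - y * m = 1 := by linear_combination hxy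
  obtain ⟨γ, hγ, hact⟩ := exists_act_eq D h
  have h2 : ∀ d : Dv (m * q), JLevelOne.jFun (aff d.1 0 1 (γ • atkW x y h τ)) =
      JLevelOne.jFun (aff (swapD q m hq hm d).1 0 1 τ) := by
    intro d
    have h3 : JLevelOne.jFun (aff d.1 0 1 (γ • atkW x y h τ)) =
        JLevelOne.jFun (aff d.1 0 1 (atkW x y h τ)) := ModFun.jd_inv d.2 γ hγ _
    rw [h3]
    exact jFun_aff_swap hq hm x y h d τ
  have h4 : (fun d : Dv (m * q) => JLevelOne.jFun (aff (id d : Dv (m * q)).1 0 1 (D.act τ))) =
      fun d : Dv (m * q) => JLevelOne.jFun (aff (swapD q m hq hm d).1 0 1 τ) := by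
    funext d
    rw [hact τ]
    exact h2 d
  unfold funP
  rw [h4]

/-- **The expansion of `F ∘ W`.** -/
theorem lexp_act (ι : K →+* ℂ) (z : modularFunctionFieldBar (m * q)) {F : ℍ → ℂ} (hF : MDiff F)
    (hg : ModGrowth F) (hL : LExp 1 F (coeffMap ι (z : LaurentSeries K))) :
    LExp 1 (fun τ => F (D.act τ)) (coeffMap ι ((wq hq hm z : modularFunctionFieldBar (m * q)) :
      LaurentSeries K)) := by
  have hz : (z : LaurentSeries K) ∈ modularFunctionFieldFullC K (m * q) := by
    rw [← laurentBaseChange_full]; exact z.2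
  have hinv := inv_of_lexp (m * q) ι hz hF hL
  have hch : HasChar (m * q) 1 (fun τ => F (D.act τ)) :=
    { mdiff := D.mdiff_act hF
      growth := D.growth_act hg
      smul := fun γ τ => by
        rw [D.act_smulG, hinv _ (Subtype.prop _)]
        simp }
  obtain ⟨G, hG⟩ := hch.exists_lexp (fun τ => by
    rw [← TG_smul (m * q) τ, hch.smul]
    simp)
  obtain ⟨P, Q, hQ, hPQ⟩ := exists_serP z
  have h1 : F * funP ι id Q = funP ι id P := by
    have := hL.mul (lexp_funP ι id Q)
    rw [← map_mul, hPQ] at this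
    exact this.funext (lexp_funP ι id P)
  have h2 : (fun τ => F (D.act τ)) * funP ι (swapD q m hq hm) Q = funP ι (swapD q m hq hm) P := by
    funext τ
    rw [Pi.mul_apply, ← funP_act hq hm D ι Q τ, ← funP_act hq hm D ι P τ, ← h1]
    rfl
  have h3 := hG.mul (lexp_funP ι (swapD q m hq hm) Q)
  rw [h2] at h3
  have h4 := h3.unique one_pos (lexp_funP ι (swapD q m hq hm) P)
  have h5 : z * ⟨serP id Q, serP_mem id Q⟩ = ⟨serP id P, serP_mem id P⟩ := Subtype.ext hPQ
  have h6 := congrArg (fun u : modularFunctionFieldBar (m * q) =>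
    ((wq hq hm u : modularFunctionFieldBar (m * q)) : LaurentSeries K)) h5
  simp only [map_mul, MulMemClass.coe_mul, coe_wq_serP] at h6
  have h7 : serP (swapD q m hq hm) Q ≠ 0 := by
    rw [← coe_wq_serP]
    intro h0
    apply hQ
    have h8 : wq hq hm ⟨serP id Q, serP_mem id Q⟩ = 0 := Subtype.ext h0
    have h9 := (map_eq_zero_iff (wq hq hm) (wq hq hm).injective).mp h8
    exact congrArg (fun u : modularFunctionFieldBar (m * q) => (u : LaurentSeries K)) h9
  have h8 : coeffMap ι (serP (swapD q m hq hm) Q) ≠ 0 := fun h => h7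
    (GalRep.coeffMap_injective ι.injective (h.trans (map_zero _).symm))
  rw [← h6, map_mul] at h4
  have h9 := mul_right_cancel₀ h8 h4
  rw [← h9]
  exact hG

theorem isKummer_wJ {n : ℕ} {x : JZero (m * q)} {h : modularFunctionFieldBar (m * q)}
    (hx : IsKummer n x h) : IsKummer n (QX4.wJ hq hm x) (wq hq hm h) := by
  have := hx.smul (SemilinearAut.ofAlgAut (wq hq hm))
  rwa [SemilinearAut.ofAlgAut_smul] at this

/-- **The relation and the Atkin--Lehner involution.** -/
theorem rel_w {ι : K →+* ℂ} {n : ℕ} {x : JZero (m * q)} {χ : Gamma0 (m * q) →* ℂˣ}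
    (hx : Rel ι (m * q) n x χ) :
    Rel ι (m * q) n (QX4.wJ hq hm x) (D.wChar (Gamma0 (m * q)) χ) := by
  obtain ⟨h, g, h1, h2, h3⟩ := hx
  refine ⟨wq hq hm h, fun τ => g (D.act τ), isKummer_wJ hq hm h1,
    ⟨D.mdiff_act h2.mdiff, D.growth_act h2.growth, fun γ τ => D.w_char h2.smul γ τ⟩, ?_⟩
  have h4 := h2.pow n
  exact lexp_act hq hm D ι h h4.mdiff h4.growth h3

end Wq

end Fermat.Agent.SO

end
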