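import Fermat.Agent.SO.RelU
import Fermat.Agent.QX4.Poly

/-!
# Hecke and Galois equivariance of `w_q`, `U_q`, `α_*`, `α^*` on all of `J₀(mq)`
-/

set_option autoImplicit false
set_option linter.style.haveILetI false
set_option linter.unusedSectionVars false

noncomputable section

namespace Fermat.Agent.SO

open ModularCurve AlgebraicCurve IntermediateField Fermat.Agent.TEll Fermat.Agent.X0Emb
open Fermat.Agent.GalRep
open Fermat.Agent.RR (div div_apply)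
open Fermat.Agent.TwoGauss (wq)
open Fermat.Agent.HeckeComm (FiniteRows smulHom smulHom_apply eq_of_principal
  finiteRows_pullbackAlong finiteRows_pushforwardAlong finiteRows_correspondence
  finiteRows_smulHom)
open Fermat.Agent.QX4 (pushA pushA_mk intA pushDegZero coe_pushDegZero push_div wJ wJ_mk smul_div
  normAlong_TEll TEll_wq map_inclS_smul)
open Fermat.Agent.S34aux (pullN pullN_mk intN fiN pullDegZero coe_pullDegZero pushN pushN_smul
  pullN_smul)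

variable {m q : ℕ} [NeZero m] [NeZero q]

theorem finiteRows_heckeDiv (N ℓ : ℕ) [NeZero N] [NeZero ℓ] : FiniteRows (heckeDiv N ℓ) :=
  finiteRows_correspondence _ _ _ _

theorem heckeDiv_wq (hq : q.Prime) (hm : ¬ q ∣ m) (ℓ : ℕ) [NeZero ℓ] (hℓ : Nat.Coprime q ℓ)
    (D : Divisor (AlgebraicClosure ℚ) (modularFunctionFieldBar (m * q))) :
    SemilinearAut.ofAlgAut (wq hq hm) • heckeDiv (m * q) ℓ D =
      heckeDiv (m * q) ℓ (SemilinearAut.ofAlgAut (wq hq hm) • D) := by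
  have h1 : (smulHom (SemilinearAut.ofAlgAut (wq hq hm))).comp (heckeDiv (m * q) ℓ) =
      (heckeDiv (m * q) ℓ).comp (smulHom (SemilinearAut.ofAlgAut (wq hq hm))) := by
    refine eq_of_principal ((finiteRows_smulHom _).comp (finiteRows_heckeDiv _ _))
      ((finiteRows_heckeDiv _ _).comp (finiteRows_smulHom _)) fun f hf => ?_
    have hw0 : wq hq hm f ≠ 0 := by simpa using hf
    rw [AddMonoidHom.comp_apply, AddMonoidHom.comp_apply, smulHom_apply, smulHom_apply,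
      heckeDiv_div hf, smul_div, smul_div, SemilinearAut.ofAlgAut_smul,
      SemilinearAut.ofAlgAut_smul, heckeDiv_div hw0, TEll_wq hq hm hℓ]
  exact DFunLike.congr_fun h1 D

/-- `w_q` commutes with `T_ℓ`. -/
theorem wJ_hecke (hq : q.Prime) (hm : ¬ q ∣ m) (ℓ : Nat.Primes) (hℓ : (ℓ : ℕ) ≠ q)
    (x : JZero (m * q)) :
    wJ hq hm (heckeOperatorBar (m * q) ℓ x) = heckeOperatorBar (m * q) ℓ (wJ hq hm x) := by
  haveI : NeZero (ℓ : ℕ) := ⟨ℓ.2.ne_zero⟩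
  obtain ⟨D, rfl⟩ := Pic0.mk_surjective x
  obtain ⟨D1, hD1, e1⟩ := heckeOperatorBar_mk ℓ D
  obtain ⟨D2, hD2, e2⟩ := heckeOperatorBar_mk ℓ
    (SemilinearAut.degZeroSMulHom (SemilinearAut.ofAlgAut (wq hq hm)) D)
  have hqℓ : Nat.Coprime q ℓ := ((Nat.coprime_primes ℓ.2 hq).mpr hℓ).symm
  rw [e1, wJ_mk, wJ_mk, e2]
  congr 1
  apply Subtype.ext
  rw [SemilinearAut.coe_degZeroSMulHom, hD1, hD2, SemilinearAut.coe_degZeroSMulHom]
  exact heckeDiv_wq hq hm ℓ hqℓ _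

theorem push_heckeDiv (hq : q.Prime) (hm : ¬ q ∣ m) (ℓ : ℕ) [NeZero ℓ] (hℓ : ℓ.Prime)
    (hℓm : ¬ ℓ ∣ m * q) (D : Divisor (AlgebraicClosure ℚ) (modularFunctionFieldBar (m * q))) :
    Divisor.pushforwardAlong (heckeAlphaBar (AlgebraicClosure ℚ) m q) (intA m q)
      (heckeDiv (m * q) ℓ D) = heckeDiv m ℓ
        (Divisor.pushforwardAlong (heckeAlphaBar (AlgebraicClosure ℚ) m q) (intA m q) D) := by
  have h1 : (Divisor.pushforwardAlong (heckeAlphaBar (AlgebraicClosure ℚ) m q) (intA m q)).comp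
      (heckeDiv (m * q) ℓ) = (heckeDiv m ℓ).comp
        (Divisor.pushforwardAlong (heckeAlphaBar (AlgebraicClosure ℚ) m q) (intA m q)) := by
    refine eq_of_principal ((finiteRows_pushforwardAlong _ _).comp (finiteRows_heckeDiv _ _))
      ((finiteRows_heckeDiv _ _).comp (finiteRows_pushforwardAlong _ _)) fun f hf => ?_
    have hT0 : TEll (AlgebraicClosure ℚ) (m * q) ℓ f ≠ 0 := TEll_ne_zero _ _ _ (finAlpha _ _) hf
    have hN0 : normAlong (heckeAlphaBar (AlgebraicClosure ℚ) m q) f ≠ 0 :=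
      normAlong_ne_zero _ (finAlpha m q) hf
    rw [AddMonoidHom.comp_apply, AddMonoidHom.comp_apply, heckeDiv_div hf,
      push_div _ (intA m q) (finAlpha m q) (nfAlpha m q) hT0,
      push_div _ (intA m q) (finAlpha m q) (nfAlpha m q) hf, heckeDiv_div hN0,
      normAlong_TEll hq hm hℓ hℓm]
  exact DFunLike.congr_fun h1 D

/-- `α_*` commutes with `T_ℓ`. -/
theorem pushA_hecke (hq : q.Prime) (hm : ¬ q ∣ m) (ℓ : Nat.Primes) (hℓ : ¬ (ℓ : ℕ) ∣ m * q)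
    (x : JZero (m * q)) :
    pushA m q (heckeOperatorBar (m * q) ℓ x) = heckeOperatorBar m ℓ (pushA m q x) := by
  haveI : NeZero (ℓ : ℕ) := ⟨ℓ.2.ne_zero⟩
  obtain ⟨D, rfl⟩ := Pic0.mk_surjective x
  obtain ⟨D1, hD1, e1⟩ := heckeOperatorBar_mk ℓ D
  obtain ⟨D2, hD2, e2⟩ := heckeOperatorBar_mk ℓ (pushDegZero
    (heckeAlphaBar (AlgebraicClosure ℚ) m q) (intA m q) D)
  rw [e1, pushA_mk, pushA_mk, e2]
  congr 1
  apply Subtype.ext
  rw [coe_pushDegZero, hD1, hD2, coe_pushDegZero]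
  exact push_heckeDiv hq hm ℓ ℓ.2 hℓ _

/-- The inclusion of function fields commutes with `T_ℓ`. -/
theorem alpha_TEll (hq : q.Prime) (ℓ : ℕ) [NeZero ℓ] (hℓ : ℓ.Prime)
    (hℓm : ¬ ℓ ∣ m * q) (f : modularFunctionFieldBar m) :
    heckeAlphaBar (AlgebraicClosure ℚ) m q (TEll (AlgebraicClosure ℚ) m ℓ f) =
      TEll (AlgebraicClosure ℚ) (m * q) ℓ (heckeAlphaBar (AlgebraicClosure ℚ) m q f) := by
  apply Subtype.ext
  rw [coe_heckeAlphaBar, coe_TEll_bar m ℓ hℓ (fun h => hℓm (h.mul_right q)),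
    coe_TEll_bar (m * q) ℓ hℓ hℓm, coe_heckeAlphaBar]

theorem pull_heckeDiv (hq : q.Prime) (ℓ : ℕ) [NeZero ℓ] (hℓ : ℓ.Prime)
    (hℓm : ¬ ℓ ∣ m * q) (D : Divisor (AlgebraicClosure ℚ) (modularFunctionFieldBar m)) :
    Divisor.pullbackAlong (heckeAlphaBar (AlgebraicClosure ℚ) m q) (intN m q)
      (heckeDiv m ℓ D) = heckeDiv (m * q) ℓ
        (Divisor.pullbackAlong (heckeAlphaBar (AlgebraicClosure ℚ) m q) (intN m q) D) := by
  have h1 : (Divisor.pullbackAlong (heckeAlphaBar (AlgebraicClosure ℚ) m q) (intN m q)).comp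
      (heckeDiv m ℓ) = (heckeDiv (m * q) ℓ).comp
        (Divisor.pullbackAlong (heckeAlphaBar (AlgebraicClosure ℚ) m q) (intN m q)) := by
    refine eq_of_principal ((finiteRows_pullbackAlong _ _).comp (finiteRows_heckeDiv _ _))
      ((finiteRows_heckeDiv _ _).comp (finiteRows_pullbackAlong _ _)) fun f hf => ?_
    have hf' : heckeAlphaBar (AlgebraicClosure ℚ) m q f ≠ 0 := by simpa using hf
    rw [AddMonoidHom.comp_apply, AddMonoidHom.comp_apply, heckeDiv_div hf,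
      HeckeComm.pullbackAlong_div, HeckeComm.pullbackAlong_div, heckeDiv_div hf',
      alpha_TEll hq ℓ hℓ hℓm]
  exact DFunLike.congr_fun h1 D

/-- `α^*` commutes with `T_ℓ`. -/
theorem pullN_hecke (hq : q.Prime) (ℓ : Nat.Primes) (hℓ : ¬ (ℓ : ℕ) ∣ m * q) (x : JZero m) :
    pullN m q (heckeOperatorBar m ℓ x) = heckeOperatorBar (m * q) ℓ (pullN m q x) := by
  haveI : NeZero (ℓ : ℕ) := ⟨ℓ.2.ne_zero⟩
  obtain ⟨D, rfl⟩ := Pic0.mk_surjective x
  obtain ⟨D1, hD1, e1⟩ := heckeOperatorBar_mk ℓ D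
  obtain ⟨D2, hD2, e2⟩ := heckeOperatorBar_mk ℓ (pullDegZero
    (heckeAlphaBar (AlgebraicClosure ℚ) m q) (intN m q) (fiN m q) D)
  rw [e1, pullN_mk, pullN_mk, e2]
  congr 1
  apply Subtype.ext
  rw [coe_pullDegZero, hD1, hD2, coe_pullDegZero]
  exact pull_heckeDiv hq ℓ ℓ.2 hℓ _

/-- `U_q` commutes with `T_ℓ`. -/
theorem UJ_hecke (hq : q.Prime) (hm : ¬ q ∣ m) (ℓ : Nat.Primes) (hℓ : ¬ (ℓ : ℕ) ∣ m * q)
    (x : JZero (m * q)) :
    UJ hq hm (heckeOperatorBar (m * q) ℓ x) = heckeOperatorBar (m * q) ℓ (UJ hq hm x) := by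
  have hℓq : (ℓ : ℕ) ≠ q := by
    rintro h
    exact hℓ (h ▸ Dvd.intro_left m rfl)
  rw [UJ_apply, UJ_apply, wJ_hecke hq hm ℓ hℓq, pushA_hecke hq hm ℓ hℓ, pullN_hecke hq ℓ hℓ,
    map_sub]

/-- An additive map commuting with the `T_ℓ`, `ℓ ∉ S`, commutes with all Hecke polynomials. -/
theorem map_inclS_smul_all {J J' : Type*} [AddCommGroup J] [Module HeckeAlg J] [AddCommGroup J']
    [Module HeckeAlg J'] (α : J →+ J') (S : Set ℕ)
    (h : ∀ ℓ : Nat.Primes, (ℓ : ℕ) ∉ S → ∀ x : J, α (heckeGen ℓ • x) = heckeGen ℓ • α x)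
    (t : HeckeAlgS S) (x : J) : α (inclS S t • x) = inclS S t • α x :=
  map_inclS_smul α S 0 (fun ℓ hℓ x _ => h ℓ hℓ x) t x (zero_smul ℕ x)

theorem wJ_inclS (hq : q.Prime) (hm : ¬ q ∣ m) (S : Set ℕ)
    (hS : ∀ ℓ : ℕ, ℓ.Prime → ℓ ∣ m * q → ℓ ∈ S) (t : HeckeAlgS S) (x : JZero (m * q)) :
    letI := heckeModuleBar (m * q)
    wJ hq hm (inclS S t • x) = inclS S t • wJ hq hm x := by
  letI i1 := heckeModuleBar (m * q)
  refine map_inclS_smul_all (wJ hq hm) S (fun ℓ hℓ x => ?_) t x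
  rw [heckeModuleBar_heckeGen_smul (HeckeComm.heckeOperatorsCommuteBar (m * q)) ℓ x,
    heckeModuleBar_heckeGen_smul (HeckeComm.heckeOperatorsCommuteBar (m * q)) ℓ (wJ hq hm x)]
  refine wJ_hecke hq hm ℓ ?_ x
  rintro h
  exact hℓ (h ▸ hS q hq (Dvd.intro_left m rfl))

theorem UJ_inclS (hq : q.Prime) (hm : ¬ q ∣ m) (S : Set ℕ)
    (hS : ∀ ℓ : ℕ, ℓ.Prime → ℓ ∣ m * q → ℓ ∈ S) (t : HeckeAlgS S) (x : JZero (m * q)) :
    letI := heckeModuleBar (m * q)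
    UJ hq hm (inclS S t • x) = inclS S t • UJ hq hm x := by
  letI i1 := heckeModuleBar (m * q)
  refine map_inclS_smul_all (UJ hq hm) S (fun ℓ hℓ x => ?_) t x
  rw [heckeModuleBar_heckeGen_smul (HeckeComm.heckeOperatorsCommuteBar (m * q)) ℓ x,
    heckeModuleBar_heckeGen_smul (HeckeComm.heckeOperatorsCommuteBar (m * q)) ℓ (UJ hq hm x)]
  exact UJ_hecke hq hm ℓ (fun h => hℓ (hS ℓ ℓ.2 h)) x

theorem pushA_inclS (hq : q.Prime) (hm : ¬ q ∣ m) (S : Set ℕ)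
    (hS : ∀ ℓ : ℕ, ℓ.Prime → ℓ ∣ m * q → ℓ ∈ S) (t : HeckeAlgS S) (x : JZero (m * q)) :
    pushA m q ((letI := heckeModuleBar (m * q); inclS S t • x)) =
      (letI := heckeModuleBar m; inclS S t • pushA m q x) := by
  letI i1 := heckeModuleBar (m * q)
  letI i2 := heckeModuleBar m
  refine map_inclS_smul_all (pushA m q) S (fun ℓ hℓ x => ?_) t x
  rw [heckeModuleBar_heckeGen_smul (HeckeComm.heckeOperatorsCommuteBar (m * q)) ℓ x,
    heckeModuleBar_heckeGen_smul (HeckeComm.heckeOperatorsCommuteBar m) ℓ (pushA m q x)]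
  exact pushA_hecke hq hm ℓ (fun h => hℓ (hS ℓ ℓ.2 h)) x

theorem pullN_inclS (hq : q.Prime) (S : Set ℕ)
    (hS : ∀ ℓ : ℕ, ℓ.Prime → ℓ ∣ m * q → ℓ ∈ S) (t : HeckeAlgS S) (x : JZero m) :
    pullN m q ((letI := heckeModuleBar m; inclS S t • x)) =
      (letI := heckeModuleBar (m * q); inclS S t • pullN m q x) := by
  letI i1 := heckeModuleBar (m * q)
  letI i2 := heckeModuleBar m
  refine map_inclS_smul_all (pullN m q) S (fun ℓ hℓ x => ?_) t x
  rw [heckeModuleBar_heckeGen_smul (HeckeComm.heckeOperatorsCommuteBar m) ℓ x,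
    heckeModuleBar_heckeGen_smul (HeckeComm.heckeOperatorsCommuteBar (m * q)) ℓ (pullN m q x)]
  exact pullN_hecke hq ℓ (fun h => hℓ (hS ℓ ℓ.2 h)) x

theorem UJ_galois (hq : q.Prime) (hm : ¬ q ∣ m)
    (σ : AlgebraicClosure ℚ ≃ₐ[ℚ] AlgebraicClosure ℚ) (x : JZero (m * q)) :
    UJ hq hm (σ • x) = σ • UJ hq hm x := by
  have h : ∀ y : JZero (m * q), pushA m q (σ • y) = σ • pushA m q y := fun y => pushN_smul m q σ y
  rw [UJ_apply, UJ_apply, QX4.wJ_galois, h, pullN_smul, smul_sub]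

end Fermat.Agent.SO

end
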