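import Fermat.Agent.S33.Formal
import Fermat.Prelude.Def_GaloisRep_StrictOrdinary

/-!
# The unramified quotient of an ordinary Hecke representation

Relations satisfied modulo the connected part `W` by an element of the decomposition group acting on
a part `Y` of the torsion of `J` hold for the eigenvalue of that element on the unramified quotient
of `ρ`.
-/

set_option autoImplicit false

noncomputable section

open CuspForm ModularCurve Polynomial Fermat.Agent.GalRep Fermat.Agent.S33aux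

namespace Fermat.Agent.SO

section Trace

variable {N p : ℕ} [NeZero N] {S : Finset ℕ}
  {J : Type*} [AddCommGroup J] [Module HeckeAlg J] [DistribMulAction GQ J]
  [SMulCommClass GQ HeckeAlg J]
  {T : Type} [CommRing T] [IsLocalRing T] [IsNoetherianRing T]

/-- the action of the group ring on `J[p^m]` -/
def actL (J : Type*) [AddCommGroup J] [Module HeckeAlg J] [DistribMulAction GQ J]
    [SMulCommClass GQ HeckeAlg J] (p m : ℕ) : MonoidAlgebra ℤ GQ →+* Module.End HeckeAlg (torsSub J p m) :=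
  (MonoidAlgebra.lift ℤ (Module.End HeckeAlg (torsSub J p m)) GQ (actTors J p m)).toRingHom

lemma actL_single (m : ℕ) (g : GQ) (c : ℤ) :
    actL J p m (MonoidAlgebra.single g c) = c • actTors J p m g :=
  MonoidAlgebra.lift_single _ _ _

lemma scal_congr (m : ℕ) {a b : ℕ} (hab : ((a : ℕ) : ZMod (p ^ m)) = b) :
    algebraMap HeckeAlg (Module.End HeckeAlg (torsSub J p m)) (a : HeckeAlg) =
      algebraMap HeckeAlg (Module.End HeckeAlg (torsSub J p m)) (b : HeckeAlg) :=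
  algebraMap_eq_of_congr (J := J) (p := p) m hab

lemma cyc_one (hp : p.Prime) (m : ℕ) {ζ : AlgebraicClosure ℚ}
    (hζ : IsPrimitiveRoot ζ (p ^ m)) : ((cycExp p hp m hζ 1 : ℕ) : ZMod (p ^ m)) = ((1 : ℕ) : ZMod (p ^ m)) := by
  have h1 : ζ ^ (cycExp p hp m hζ 1) = ζ ^ 1 := by
    rw [← cycExp_spec p hp m hζ 1, pow_one, AlgEquiv.one_apply]
  exact natCast_eq_of_pow_eq p hp m hζ h1

variable (J) in
/-- `g ↦ χ(g) g⁻¹` as an anti-homomorphism. -/
def starT (hp : p.Prime) (m : ℕ) {ζ : AlgebraicClosure ℚ} (hζ : IsPrimitiveRoot ζ (p ^ m)) :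
    GQ →* (Module.End HeckeAlg (torsSub J p m))ᵐᵒᵖ where
  toFun g := MulOpposite.op (algebraMap HeckeAlg (Module.End HeckeAlg (torsSub J p m))
    (cycExp p hp m hζ g : HeckeAlg) * actTors J p m g⁻¹)
  map_one' := by
    rw [scal_congr (J := J) m (cyc_one hp m hζ), Nat.cast_one, map_one, one_mul, inv_one, map_one]
    rfl
  map_mul' g h := by
    have h1 := scal_congr (J := J) m (cycExp_mul p hp m hζ g h)
    rw [Nat.cast_mul, map_mul] at h1
    rw [h1, ← MulOpposite.op_mul, mul_inv_rev, map_mul]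
    congr 1
    rw [mul_assoc, mul_assoc, ← mul_assoc (actTors J p m h⁻¹), ← Algebra.commutes _ (actTors J p m h⁻¹),
      mul_assoc]

variable (J) in
/-- the anti-action of the group ring on `J[p^m]` -/
def starL (hp : p.Prime) (m : ℕ) {ζ : AlgebraicClosure ℚ} (hζ : IsPrimitiveRoot ζ (p ^ m)) :
    MonoidAlgebra ℤ GQ →+* (Module.End HeckeAlg (torsSub J p m))ᵐᵒᵖ :=
  (MonoidAlgebra.lift ℤ (Module.End HeckeAlg (torsSub J p m))ᵐᵒᵖ GQ (starT J hp m hζ)).toRingHom

lemma starL_single (hp : p.Prime) (m : ℕ) {ζ : AlgebraicClosure ℚ}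
    (hζ : IsPrimitiveRoot ζ (p ^ m)) (g : GQ) (c : ℤ) :
    starL J hp m hζ (MonoidAlgebra.single g c) = c • starT J hp m hζ g :=
  MonoidAlgebra.lift_single _ _ _

/-- the action of the group ring on `ρ` -/
def repL (ρ : GaloisRepAdic T) : MonoidAlgebra ℤ GQ →+* Module.End T ρ.V :=
  (MonoidAlgebra.lift ℤ (Module.End T ρ.V) GQ ρ.ρ).toRingHom

omit [IsNoetherianRing T] in
lemma repL_single (ρ : GaloisRepAdic T) (g : GQ) (c : ℤ) :
    repL ρ (MonoidAlgebra.single g c) = c • ρ.ρ g :=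
  MonoidAlgebra.lift_single _ _ _

/-- An element `y` of the group ring such that `y + y*` maps `Y[p^m]` into `W` has small trace. -/
theorem trace_mem (hJ : ESInput N p (↑S : Set ℕ) J) (hp : p.Prime)
    (hpS : p ∈ S) (hNS : ∀ q : ℕ, q.Prime → q ∣ N → q ∈ S)
    {π : heckeAlgebra N 2 (↑S : Set ℕ) →+* T} {ρ : GaloisRepAdic T}
    (hfrob : HasFrobCharpoly π ρ) {m n : ℕ} {ζ : AlgebraicClosure ℚ}
    (hζ : IsPrimitiveRoot ζ (p ^ m)) (W Y : AddSubgroup J)
    (hm : ∀ t : HeckeAlgS (↑S : Set ℕ),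
      (∀ x ∈ Y, p ^ m • x = 0 → inclS (↑S : Set ℕ) t • x ∈ W) →
      π (evS N (↑S : Set ℕ) t) ∈ Ideal.span {(p : T) ^ n})
    (y : MonoidAlgebra ℤ GQ)
    (h : ∀ x : torsSub J p m, (x : J) ∈ Y →
      (((actL J p m y + MulOpposite.unop (starL J hp m hζ y)) x : torsSub J p m) : J) ∈ W) :
    LinearMap.trace T ρ.V (repL ρ y) ∈ Ideal.span {(p : T) ^ n} := by
  refine mem_of_forall_mem_sup_pow _ _ fun n' => ?_
  obtain ⟨t, ht, ht'⟩ := exists_heckeApprox hJ hp hpS hNS hfrob m n' hζ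
  let tt : MonoidAlgebra ℤ GQ →+ HeckeAlgS (↑S : Set ℕ) :=
    MonoidAlgebra.liftNC ((Int.castRingHom (HeckeAlgS (↑S : Set ℕ))) : ℤ →+ _) t
  have htt : ∀ g c, tt (MonoidAlgebra.single g c) = c • t g := by
    intro g c
    have := MonoidAlgebra.liftNC_single
      ((Int.castRingHom (HeckeAlgS (↑S : Set ℕ))) : ℤ →+ _) t g c
    rw [zsmul_eq_mul]
    exact this
  have h1 : ∀ z : MonoidAlgebra ℤ GQ, actL J p m z + MulOpposite.unop (starL J hp m hζ z) =
      algebraMap HeckeAlg (Module.End HeckeAlg (torsSub J p m)) (inclS (↑S : Set ℕ) (tt z)) := by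
    intro z
    let F : MonoidAlgebra ℤ GQ →+ Module.End HeckeAlg (torsSub J p m) :=
      { toFun := fun z => actL J p m z + MulOpposite.unop (starL J hp m hζ z)
        map_zero' := by simp
        map_add' := fun a b => by simp only [map_add, MulOpposite.unop_add]; abel }
    let G : MonoidAlgebra ℤ GQ →+ Module.End HeckeAlg (torsSub J p m) :=
      { toFun := fun z => algebraMap HeckeAlg (Module.End HeckeAlg (torsSub J p m))
          (inclS (↑S : Set ℕ) (tt z))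
        map_zero' := by simp
        map_add' := fun a b => by simp only [map_add] }
    have hFG : F = G := by
      refine MonoidAlgebra.addMonoidHom_ext fun g c => ?_
      show actL J p m _ + MulOpposite.unop (starL J hp m hζ _) =
        algebraMap HeckeAlg (Module.End HeckeAlg (torsSub J p m)) (inclS (↑S : Set ℕ) (tt _))
      rw [actL_single, starL_single, htt, MulOpposite.unop_smul, map_zsmul, map_zsmul, ← ht g,
        smul_add]
      rfl
    exact DFunLike.congr_fun hFG z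
  have h2 : ∀ z : MonoidAlgebra ℤ GQ, LinearMap.trace T ρ.V (repL ρ z) -
      π (evS N (↑S : Set ℕ) (tt z)) ∈ IsLocalRing.maximalIdeal T ^ n' := by
    intro z
    induction z using MonoidAlgebra.induction_linear with
    | zero => simp
    | add a b ha hb =>
      have : LinearMap.trace T ρ.V (repL ρ (a + b)) - π (evS N (↑S : Set ℕ) (tt (a + b))) =
        (LinearMap.trace T ρ.V (repL ρ a) - π (evS N (↑S : Set ℕ) (tt a))) +
        (LinearMap.trace T ρ.V (repL ρ b) - π (evS N (↑S : Set ℕ) (tt b))) := by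
        simp only [map_add]; ring
      rw [this]
      exact Ideal.add_mem _ ha hb
    | single g c =>
      rw [repL_single, htt, map_zsmul, map_zsmul, map_zsmul, ← smul_sub]
      exact zsmul_mem (ht' g) c
  have h3 := hm (tt y) (fun x hx hxm => by
    have h4 := h ⟨x, hxm⟩ hx
    rw [h1 y, Module.algebraMap_end_apply] at h4
    exact h4)
  have h5 : LinearMap.trace T ρ.V (repL ρ y) = π (evS N (↑S : Set ℕ) (tt y)) +
      (LinearMap.trace T ρ.V (repL ρ y) - π (evS N (↑S : Set ℕ) (tt y))) := by ring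
  rw [h5]
  exact Submodule.add_mem_sup h3 (h2 y)

end Trace

section Zero

variable {p : ℕ} {T : Type} [CommRing T] [IsLocalRing T]

lemma eq_zero_of_forall_span [IsNoetherianRing T] (hpT : (p : T) ∈ IsLocalRing.maximalIdeal T)
    {x : T} (hx : ∀ n : ℕ, x ∈ Ideal.span {(p : T) ^ n}) : x = 0 := by
  have h := Ideal.iInf_pow_eq_bot_of_isLocalRing (IsLocalRing.maximalIdeal T)
    (Ideal.IsPrime.ne_top inferInstance)
  have : x ∈ ⨅ n : ℕ, IsLocalRing.maximalIdeal T ^ n := by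
    rw [Submodule.mem_iInf]
    intro n
    exact (Ideal.span_singleton_le_iff_mem _).mpr (Ideal.pow_mem_pow hpT n) (hx n)
  rw [h] at this
  exact this

lemma isUnit_two (hp : p.Prime) (hp2 : p ≠ 2) (hpT : (p : T) ∈ IsLocalRing.maximalIdeal T) :
    IsUnit (2 : T) := by
  by_contra h
  have h2m := (IsLocalRing.mem_maximalIdeal _).mpr h
  obtain ⟨k, hk⟩ := hp.odd_of_ne_two hp2
  have h1 : (1 : T) = p - 2 * k := by rw [hk]; push_cast; ring
  have h3 : (1 : T) ∈ IsLocalRing.maximalIdeal T := by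
    rw [h1]; exact Ideal.sub_mem _ hpT (Ideal.mul_mem_right _ _ h2m)
  exact (IsLocalRing.mem_maximalIdeal _).mp h3 isUnit_one

lemma isUnit_one_sub_det {ρ : GaloisRepAdic T} (hp : p.Prime) (hp2 : p ≠ 2)
    (hpT : (p : T) ∈ IsLocalRing.maximalIdeal T) (hdet : ρ.DetIsCyclotomic p)
    {ζ : AlgebraicClosure ℚ} (hζ : IsPrimitiveRoot ζ p) {σ₀ : GQ} (hσ₀ : σ₀ ζ = ζ⁻¹) :
    IsUnit (1 - LinearMap.det (ρ.ρ σ₀)) := by
  set ε := LinearMap.det (ρ.ρ σ₀) with hε
  have hp0 : NeZero p := ⟨hp.ne_zero⟩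
  have h1 := hdet.2 1 σ₀ (p - 1) (fun μ hμ => by
    rw [pow_one] at hμ
    obtain ⟨i, -, hi⟩ := hζ.eq_pow_of_pow_eq_one hμ
    have hμ0 : μ ≠ 0 := by
      rintro rfl
      rw [zero_pow hp.ne_zero] at hμ
      exact zero_ne_one hμ
    have h2 : σ₀ μ = μ⁻¹ := by rw [← hi, map_pow, hσ₀, inv_pow]
    rw [h2]
    refine inv_eq_of_mul_eq_one_right ?_
    rw [← pow_succ', Nat.sub_add_cancel hp.one_le, hμ])
  have h2 : ε + 1 ∈ IsLocalRing.maximalIdeal T := by
    have h3 : (((p - 1 : ℕ) : T)) = p - 1 := by rw [Nat.cast_sub hp.one_le, Nat.cast_one]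
    rw [h3] at h1
    have h4 : ((p ^ 1 : ℕ) : T) ∈ IsLocalRing.maximalIdeal T := by rw [pow_one]; exact hpT
    have h5 := (Ideal.span_singleton_le_iff_mem _).mpr h4 h1
    have h6 : ε + 1 = (ε - (p - 1)) + p := by ring
    rw [h6]; exact Ideal.add_mem _ h5 hpT
  by_contra h
  have h3 := (IsLocalRing.mem_maximalIdeal _).mpr h
  have h4 : (2 : T) = (1 - ε) + (ε + 1) := by ring
  have h5 : (2 : T) ∈ IsLocalRing.maximalIdeal T := by rw [h4]; exact Ideal.add_mem _ h3 h2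
  exact (IsLocalRing.mem_maximalIdeal _).mp h5 (isUnit_two hp hp2 hpT)

end Zero

section Main

variable {N p : ℕ} [NeZero N] {S : Finset ℕ}
  {J : Type*} [AddCommGroup J] [Module HeckeAlg J] [DistribMulAction GQ J]
  [SMulCommClass GQ HeckeAlg J]
  {T : Type} [CommRing T] [IsLocalRing T] [IsNoetherianRing T]

omit [IsLocalRing T] [IsNoetherianRing T] in
lemma coord_aeval {V : Type*} [AddCommGroup V] [Module T V] (c : V →ₗ[T] T) (A : Module.End T V)
    (z : T) (h : ∀ v, c (A v) = z * c v) (Q : ℤ[X]) (v : V) :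
    c (aeval A Q v) = aeval z Q * c v := by
  induction Q using Polynomial.induction_on' generalizing v with
  | add P Q hP hQ => rw [map_add, LinearMap.add_apply, map_add, hP, hQ, map_add, add_mul]
  | monomial n a =>
    rw [aeval_monomial, aeval_monomial]
    have h1 : ∀ (n : ℕ) (v : V), c ((A ^ n) v) = z ^ n * c v := by
      intro n
      induction n with
      | zero => intro v; simp
      | succ n ih => intro v; rw [pow_succ, Module.End.mul_apply, ih, h, pow_succ, mul_assoc]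
    have h2 : ((algebraMap ℤ (Module.End T V)) a * A ^ n) v = a • ((A ^ n) v) := by
      rw [Module.End.mul_apply, Module.algebraMap_end_apply]
    rw [h2, map_zsmul, h1, zsmul_eq_mul, eq_intCast, mul_assoc]

/-- **Relations on the unramified quotient.** -/
theorem quotient_relation (hJ : ESInput N p (↑S : Set ℕ) J) (hp : p.Prime) (hp2 : p ≠ 2)
    (hpS : p ∈ S) (hpT : (p : T) ∈ IsLocalRing.maximalIdeal T)
    (hNS : ∀ q : ℕ, q.Prime → q ∣ N → q ∈ S)
    {π : heckeAlgebra N 2 (↑S : Set ℕ) →+* T} {ρ : GaloisRepAdic T}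
    (hfrob : HasFrobCharpoly π ρ) (habs : ρ.residual.IsAbsolutelyIrreducible)
    {P : ValuationSubring (AlgebraicClosure ℚ)} (hP : P.LiesOverPrime p) {W Y : AddSubgroup J}
    (hWD : ∀ g ∈ P.decompositionSubgroup ℚ, ∀ x ∈ W, g • x ∈ W)
    (hWI : ∀ τ ∈ P.inertiaSubgroupIn ℚ, ∀ m : ℕ, ∀ x : J, p ^ m • x = 0 → τ • x - x ∈ W)
    (hYG : ∀ g : GQ, ∀ x ∈ Y, g • x ∈ Y)
    (hYW : ∀ n : ℕ, ∃ m : ℕ, ∀ t : HeckeAlgS (↑S : Set ℕ),
      (∀ x ∈ Y, p ^ m • x = 0 → inclS (↑S : Set ℕ) t • x ∈ W) →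
        π (evS N (↑S : Set ℕ) t) ∈ Ideal.span {(p : T) ^ n})
    {σ : GQ} (Q : ℤ[X]) (hQ : ∀ (m : ℕ) (x : torsSub J p m), (x : J) ∈ Y →
      ((aeval (actTors J p m σ) Q x : torsSub J p m) : J) ∈ W)
    {L : Submodule T ρ.V} {b : Module.Basis (Fin 2) T ρ.V} (hb : L = T ∙ b 0)
    (hLI : ∀ τ ∈ P.inertiaSubgroupIn ℚ, ∀ v : ρ.V, ρ.ρ τ v - v ∈ L) {z : T}
    (hz : ∀ v : ρ.V, ρ.ρ σ v - z • v ∈ L) : aeval z Q = 0 := by
  classical
  have hp0 : NeZero p := ⟨hp.ne_zero⟩
  obtain ⟨ζ₁, hζ₁⟩ := HasEnoughRootsOfUnity.exists_primitiveRoot (AlgebraicClosure ℚ) p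
  obtain ⟨σ₀, hσ₀, hσ₀ζ⟩ := exists_inertia_inv hp hP hζ₁
  have hσ₀D := mem_decomposition_of_inertia hσ₀
  have hdet := detIsCyclotomic hfrob hp hpS hpT hNS
  set f : Module.End T ρ.V := ρ.ρ σ₀ with hf
  set ε : T := LinearMap.det f with hε
  have hεu : IsUnit (1 - ε) := isUnit_one_sub_det hp hp2 hpT hdet hζ₁ hσ₀ζ
  set Qr : Module.End T ρ.V := aeval (ρ.ρ σ) Q with hQr
  -- trace computation at level `n`
  have hlevel : ∀ (n : ℕ) (g : GQ),
      LinearMap.trace T ρ.V ((f - ε • 1) * Qr * ρ.ρ g * (f - ε • 1)) ∈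
        Ideal.span {(p : T) ^ n} := by
    intro n g
    obtain ⟨m₀, hm₀⟩ := hYW n
    set m := max m₀ n with hmdef
    have hm : ∀ t : HeckeAlgS (↑S : Set ℕ),
        (∀ x ∈ Y, p ^ m • x = 0 → inclS (↑S : Set ℕ) t • x ∈ W) →
          π (evS N (↑S : Set ℕ) t) ∈ Ideal.span {(p : T) ^ n} := by
      intro t ht
      refine hm₀ t fun x hxY hx => ht x hxY ?_
      have : p ^ m = p ^ (m - m₀) * p ^ m₀ := by
        rw [← pow_add, Nat.sub_add_cancel (le_max_left _ _)]
      rw [this, mul_smul, hx, smul_zero]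
    have : NeZero (p ^ m) := ⟨pow_ne_zero _ hp.ne_zero⟩
    obtain ⟨ζ, hζ⟩ := HasEnoughRootsOfUnity.exists_primitiveRoot (AlgebraicClosure ℚ) (p ^ m)
    set c := cycExp p hp m hζ σ₀ with hc
    have hεc : ε - c ∈ Ideal.span {(p : T) ^ n} := by
      have h1 := hdet.2 m σ₀ c (fun μ hμ => by
        obtain ⟨i, -, hi⟩ := hζ.eq_pow_of_pow_eq_one hμ
        rw [← hi, map_pow, hc, cycExp_spec p hp m hζ σ₀, ← pow_mul, ← pow_mul, mul_comm])
      refine (Ideal.span_singleton_le_span_singleton.mpr ?_) h1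
      push_cast
      exact pow_dvd_pow _ (le_max_right _ _)
    -- the element of the group ring
    set u : MonoidAlgebra ℤ GQ := MonoidAlgebra.single σ₀ 1 - (c : MonoidAlgebra ℤ GQ) with hu
    set qq : MonoidAlgebra ℤ GQ := aeval (MonoidAlgebra.single σ (1 : ℤ)) Q with hqq
    set y : MonoidAlgebra ℤ GQ := u * qq * MonoidAlgebra.single g 1 * u with hy
    have hau : ∀ x : torsSub J p m, ((actL J p m u x : torsSub J p m) : J) =
        σ₀ • (x : J) - c • (x : J) := by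
      intro x
      rw [hu, map_sub, actL_single, one_smul, map_natCast, LinearMap.sub_apply,
        Module.End.natCast_apply]
      rfl
    have haq : actL J p m qq = aeval (actTors J p m σ) Q := by
      rw [hqq]
      have h1 := Polynomial.hom_eval₂ Q (algebraMap ℤ (MonoidAlgebra ℤ GQ)) (actL J p m)
        (MonoidAlgebra.single σ (1 : ℤ))
      rw [aeval_def, h1, actL_single, one_smul, aeval_def]
      congr 1
      exact RingHom.ext_int _ _
    have hsu : ∀ x : torsSub J p m,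
        ((MulOpposite.unop (starL J hp m hζ u) x : torsSub J p m) : J) =
        c • (σ₀⁻¹ • (x : J) - (x : J)) := by
      intro x
      rw [hu, map_sub, starL_single, one_smul, map_natCast, MulOpposite.unop_sub,
        MulOpposite.unop_natCast, LinearMap.sub_apply, Module.End.natCast_apply]
      have e2 : (((MulOpposite.unop (starT J hp m hζ σ₀)) x : torsSub J p m) : J) =
          (c : HeckeAlg) • (σ₀⁻¹ • (x : J)) := rfl
      rw [AddSubgroupClass.coe_sub, e2, Nat.cast_smul_eq_nsmul, smul_sub]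
      rfl
    have htr := trace_mem hJ hp hpS hNS hfrob hζ W Y hm y (fun x hx => by
      rw [LinearMap.add_apply, Submodule.coe_add]
      refine W.add_mem ?_ ?_
      · rw [hy, map_mul, map_mul, map_mul, haq]
        simp only [Module.End.mul_apply]
        have h1 : ((actL J p m u x : torsSub J p m) : J) ∈ Y := by
          rw [hau]
          exact Y.sub_mem (hYG _ _ hx) (Y.nsmul_mem hx _)
        have h2 : ((actL J p m (MonoidAlgebra.single g 1) (actL J p m u x) : torsSub J p m) : J) ∈ Y := by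
          rw [actL_single, one_smul, coe_actTors_apply]
          exact hYG _ _ h1
        have h3 := hQ m _ h2
        rw [hau]
        exact W.sub_mem (hWD _ hσ₀D _ h3) (W.nsmul_mem h3 _)
      · rw [hy, map_mul, MulOpposite.unop_mul, Module.End.mul_apply, hsu]
        exact W.nsmul_mem (hWI _ (inv_mem hσ₀) m _
          ((MulOpposite.unop (starL J hp m hζ (u * qq * MonoidAlgebra.single g 1))) x).2) _)
    have hry : repL ρ y = (f - (c : T) • 1) * Qr * ρ.ρ g * (f - (c : T) • 1) := by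
      have h1 : repL ρ u = f - (c : T) • 1 := by
        rw [hu, map_sub, repL_single, one_smul, map_natCast]
        congr 1
        ext v
        rw [Module.End.natCast_apply, LinearMap.smul_apply, Module.End.one_apply,
          Nat.cast_smul_eq_nsmul]
      have h2 : repL ρ qq = Qr := by
        rw [hqq, hQr]
        have h1 := Polynomial.hom_eval₂ Q (algebraMap ℤ (MonoidAlgebra ℤ GQ)) (repL ρ)
          (MonoidAlgebra.single σ (1 : ℤ))
        rw [aeval_def, h1, repL_single, one_smul, aeval_def]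
        congr 1
        exact RingHom.ext_int _ _
      rw [hy, map_mul, map_mul, map_mul, h1, h2, repL_single, one_smul]
    rw [hry] at htr
    have hsplit : (f - ε • 1) * Qr * ρ.ρ g * (f - ε • 1) =
        (f - (c : T) • 1) * Qr * ρ.ρ g * (f - (c : T) • 1) -
        (ε - c) • (Qr * ρ.ρ g * (f - (c : T) • 1) + (f - ε • 1) * Qr * ρ.ρ g) := by
      have e1 : f - ε • (1 : Module.End T ρ.V) = (f - (c : T) • 1) - (ε - c) • 1 := by
        rw [sub_smul]; abel
      rw [e1]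
      simp only [sub_mul, mul_sub, smul_mul_assoc, mul_smul_comm, one_mul, mul_one, smul_add,
        smul_sub]
      module
    rw [hsplit, map_sub, map_smul, smul_eq_mul]
    exact Ideal.sub_mem _ htr (Ideal.mul_mem_right _ _ hεc)
  have hzero : ∀ g : GQ, LinearMap.trace T ρ.V ((f - ε • 1) * Qr * ρ.ρ g * (f - ε • 1)) = 0 :=
    fun g => eq_zero_of_forall_span hpT fun n => hlevel n g
  have hzero' : ∀ Z : Module.End T ρ.V,
      LinearMap.trace T ρ.V ((f - ε • 1) * Qr * Z * (f - ε • 1)) = 0 := by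
    intro Z
    have hZ : Z ∈ Submodule.span T (Set.range ρ.ρ) := by rw [span_range_eq_top ρ habs]; trivial
    induction hZ using Submodule.span_induction with
    | mem x hx =>
      obtain ⟨g, rfl⟩ := hx
      exact hzero g
    | zero => simp
    | add x y _ _ hx hy =>
      rw [mul_add, add_mul, map_add, hx, hy, add_zero]
    | smul c x _ hx =>
      rw [mul_smul_comm, smul_mul_assoc, map_smul, hx, smul_zero]
  -- the coordinate on the quotient
  set c1 : ρ.V →ₗ[T] T := b.coord 1 with hc1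
  have hL : ∀ v ∈ L, c1 v = 0 := by
    intro v hv
    rw [hb] at hv
    obtain ⟨a, rfl⟩ := Submodule.mem_span_singleton.mp hv
    rw [map_smul, hc1, Module.Basis.coord_apply, Module.Basis.repr_self]
    simp
  have hf1 : ∀ v, c1 (f v) = 1 * c1 v := by
    intro v
    have := hL _ (hLI σ₀ hσ₀ v)
    rw [map_sub, sub_eq_zero] at this
    rw [one_mul, hf, this]
  have hσ1 : ∀ v, c1 (ρ.ρ σ v) = z * c1 v := by
    intro v
    have := hL _ (hz v)
    rw [map_sub, sub_eq_zero, map_smul, smul_eq_mul] at this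
    exact this
  have hb1 : c1 (b 1) = 1 := by
    rw [hc1, Module.Basis.coord_apply, Module.Basis.repr_self]; simp
  have hfe : ∀ v, c1 ((f - ε • 1) v) = (1 - ε) * c1 v := by
    intro v
    rw [LinearMap.sub_apply, LinearMap.smul_apply, Module.End.one_apply, map_sub, hf1, map_smul,
      smul_eq_mul]
    ring
  have hkey := hzero' (c1.smulRight (b 1))
  have h1 : (f - ε • 1) * Qr * (c1.smulRight (b 1)) * (f - ε • 1) =
      ((c1.comp (f - ε • 1)).smulRight ((f - ε • 1) (Qr (b 1)))) := by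
    ext v
    simp only [Module.End.mul_apply, LinearMap.smulRight_apply, LinearMap.comp_apply, map_smul]
  rw [h1, LinearMap.trace_smulRight, LinearMap.comp_apply, hfe, hfe, hQr,
    coord_aeval c1 (ρ.ρ σ) z hσ1, hb1, mul_one] at hkey
  exact (hεu.mul_right_eq_zero).mp ((hεu.mul_right_eq_zero).mp hkey)

omit [IsLocalRing T] [IsNoetherianRing T] in
lemma coe_aeval_actTors (m : ℕ) (σ : GQ) (Q : ℤ[X]) (x : torsSub J p m) :
    ((aeval (actTors J p m σ) Q x : torsSub J p m) : J) =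
      Q.sum fun j c => c • (σ ^ j • (x : J)) := by
  rw [aeval_eq_sum_range, Polynomial.sum_over_range]
  · rw [LinearMap.sum_apply, Submodule.coe_sum]
    refine Finset.sum_congr rfl fun j _ => ?_
    rw [LinearMap.smul_apply, ← map_pow]
    rfl
  · intro j; exact zero_smul ℤ _

/-- `t Y[p^m] ⊆ W` forces `π(t)` to be small. -/
theorem small_of_geo (hJ : ESInput N p (↑S : Set ℕ) J) (hp : p.Prime) (hp2 : p ≠ 2)
    (hpS : p ∈ S) (hpT : (p : T) ∈ IsLocalRing.maximalIdeal T)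
    (hNS : ∀ q : ℕ, q.Prime → q ∣ N → q ∈ S) (hfin : {x : J | p • x = 0}.Finite)
    {π : heckeAlgebra N 2 (↑S : Set ℕ) →+* T} {ρ : GaloisRepAdic T}
    (hfrob : HasFrobCharpoly π ρ) (habs : ρ.residual.IsAbsolutelyIrreducible)
    (hres : (GaloisRepAdic.ofResidualGaloisRep ρ.residual).IsOrdinaryAt p)
    (Φ : Set (J →+ J)) (hwH : ∀ w ∈ Φ, ∀ (t : HeckeAlgS (↑S : Set ℕ)) (x : J),
      w (inclS (↑S : Set ℕ) t • x) = inclS (↑S : Set ℕ) t • w x)
    {P : ValuationSubring (AlgebraicClosure ℚ)} (hP : P.LiesOverPrime p) {W : AddSubgroup J}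
    (hgeo : GeoInput p (↑S : Set ℕ) J P W Φ) (Y : AddSubgroup J)
    (hYG : ∀ g : GQ, ∀ x ∈ Y, g • x ∈ Y)
    (hYH : ∀ t : HeckeAlgS (↑S : Set ℕ), ∀ x ∈ Y, inclS (↑S : Set ℕ) t • x ∈ Y)
    (hYw : ∀ w ∈ Φ, ∀ x ∈ Y, w x ∈ Y)
    (hfaith : ∀ n : ℕ, ∃ m : ℕ, ∀ t : HeckeAlgS (↑S : Set ℕ),
      (∀ x ∈ Y, p ^ m • x = 0 → inclS (↑S : Set ℕ) t • x = 0) →
        π (evS N (↑S : Set ℕ) t) ∈ Ideal.span {(p : T) ^ n}) :
    ∀ n : ℕ, ∃ m : ℕ, ∀ t : HeckeAlgS (↑S : Set ℕ),
      (∀ x ∈ Y, p ^ m • x = 0 → inclS (↑S : Set ℕ) t • x ∈ W) →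
        π (evS N (↑S : Set ℕ) t) ∈ Ideal.span {(p : T) ^ n} := by
  intro n
  obtain ⟨m, hm⟩ := hfaith n
  refine ⟨m, fun t ht => ?_⟩
  set X : AddSubgroup J :=
    { carrier := {z | (∃ y ∈ Y, p ^ m • y = 0 ∧ z = inclS (↑S : Set ℕ) t • y) ∧ p • z = 0}
      add_mem' := by
        rintro a b ⟨⟨y, hyY, hy, rfl⟩, ha⟩ ⟨⟨y', hyY', hy', rfl⟩, hb⟩
        exact ⟨⟨y + y', Y.add_mem hyY hyY', by rw [smul_add, hy, hy', add_zero],
          (smul_add _ _ _).symm⟩, by rw [smul_add, ha, hb, add_zero]⟩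
      zero_mem' := ⟨⟨0, Y.zero_mem, smul_zero _, (smul_zero _).symm⟩, smul_zero _⟩
      neg_mem' := by
        rintro a ⟨⟨y, hyY, hy, rfl⟩, ha⟩
        exact ⟨⟨-y, Y.neg_mem hyY, by rw [smul_neg, hy, neg_zero], (smul_neg _ _).symm⟩, by
          rw [smul_neg, ha, neg_zero]⟩ } with hX
  have hcom : ∀ (k : ℕ) (g : GQ) (x : J), k • (g • x) = g • (k • x) := fun k g x =>
    (smul_comm g k x).symm
  have hcom' : ∀ (k : ℕ) (r : HeckeAlg) (x : J), k • (r • x) = r • (k • x) := fun k r x =>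
    (smul_comm r k x).symm
  obtain ⟨s, hs, hsX⟩ := exists_unit_kill hJ hp hp2 hpS hpT hNS hfin hfrob habs hres Φ hwH hP
    hgeo X (by
      rintro z ⟨⟨y, hyY, hy, rfl⟩, -⟩
      exact ht y hyY hy) (fun z hz => hz.2) (by
      rintro g z ⟨⟨y, hyY, hy, rfl⟩, hz⟩
      exact ⟨⟨g • y, hYG g y hyY, by rw [hcom, hy, smul_zero], smul_comm _ _ _⟩, by
        rw [hcom, hz, smul_zero]⟩) (by
      rintro t' z ⟨⟨y, hyY, hy, rfl⟩, hz⟩
      exact ⟨⟨inclS (↑S : Set ℕ) t' • y, hYH t' y hyY, by rw [hcom', hy, smul_zero],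
        smul_comm _ _ _⟩, by rw [hcom', hz, smul_zero]⟩) (by
      rintro w hw z ⟨⟨y, hyY, hy, rfl⟩, hz⟩
      exact ⟨⟨w y, hYw w hw y hyY, by rw [← map_nsmul, hy, map_zero], hwH w hw _ _⟩, by
        rw [← map_nsmul, hz, map_zero]⟩)
  have hkill : ∀ j : ℕ, ∀ z : J, (∃ y ∈ Y, p ^ m • y = 0 ∧ z = inclS (↑S : Set ℕ) t • y) →
      p ^ j • z = 0 → inclS (↑S : Set ℕ) (s ^ j) • z = 0 := by
    intro j
    induction j with
    | zero =>
      intro z _ hz
      rw [pow_zero, one_smul] at hz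
      rw [hz, smul_zero]
    | succ j ih =>
      rintro z ⟨y, hyY, hy, rfl⟩ hz
      have h1 : p ^ j • (inclS (↑S : Set ℕ) t • y) ∈ X := by
        refine ⟨⟨p ^ j • y, Y.nsmul_mem hyY _, by rw [smul_comm, hy, smul_zero],
          hcom' _ _ _⟩, ?_⟩
        rw [← mul_smul, ← pow_succ', hz]
      have h2 := hsX _ h1
      rw [← hcom'] at h2
      have h3 := ih (inclS (↑S : Set ℕ) s • (inclS (↑S : Set ℕ) t • y))
        ⟨inclS (↑S : Set ℕ) s • y, hYH s y hyY, by rw [hcom', hy, smul_zero], smul_comm _ _ _⟩ h2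
      rw [pow_succ, map_mul, mul_smul]
      exact h3
  have h1 := hm (s ^ m * t) (fun x hxY hx => by
    rw [map_mul, mul_smul]
    refine hkill m _ ⟨x, hxY, hx, rfl⟩ ?_
    rw [hcom', hx, smul_zero])
  rw [map_mul, map_mul, map_pow, map_pow] at h1
  exact (Ideal.unit_mul_mem_iff_mem _ (hs.pow m)).mp h1

end Main

section Strict

variable {p : ℕ} {T : Type} [CommRing T] [IsLocalRing T]

/-- ordinary with `z(σ)² = 1` on the decomposition group is strictly ordinary. -/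
theorem isStrictOrdinaryAt_of_sq {ρ : GaloisRepAdic T} (hord : ρ.IsOrdinaryAt p)
    (hdet : ρ.DetIsCyclotomic p)
    (h : ∀ P : ValuationSubring (AlgebraicClosure ℚ), P.LiesOverPrime p →
      ∀ (L : Submodule T ρ.V) (b : Module.Basis (Fin 2) T ρ.V), L = T ∙ b 0 →
      (∀ τ ∈ P.inertiaSubgroupIn ℚ, ∀ v : ρ.V, ρ.ρ τ v - v ∈ L) →
      ∀ σ ∈ P.decompositionSubgroup ℚ, ∀ z : T, (∀ v : ρ.V, ρ.ρ σ v - z • v ∈ L) → z * z = 1) :
    ρ.IsStrictOrdinaryAt p := by
  refine ⟨hdet.1, fun P hP => ?_⟩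
  obtain ⟨L, ⟨b, hb⟩, hD, hI⟩ := hord P hP
  refine ⟨L, ⟨b, hb⟩, hD, hI, fun σ hσ => ?_⟩
  have hb0 : b 0 ∈ L := by rw [hb]; exact Submodule.mem_span_singleton_self _
  obtain ⟨x, hx⟩ : ∃ x : T, x • b 0 = ρ.ρ σ (b 0) := by
    have := hD σ hσ _ hb0
    rw [hb] at this
    exact Submodule.mem_span_singleton.mp this
  set z : T := b.repr (ρ.ρ σ (b 1)) 1 with hz
  set y : T := b.repr (ρ.ρ σ (b 1)) 0 with hy
  have h1 : ρ.ρ σ (b 1) = y • b 0 + z • b 1 := by
    have := b.sum_repr (ρ.ρ σ (b 1))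
    rw [Fin.sum_univ_two] at this
    exact this.symm
  have hzL : ∀ v : ρ.V, ρ.ρ σ v - z • v ∈ L := by
    intro v
    have hv := b.sum_repr v
    rw [Fin.sum_univ_two] at hv
    rw [← hv, map_add, map_smul, map_smul, ← hx, h1]
    have e : b.repr v 0 • x • b 0 + b.repr v 1 • (y • b 0 + z • b 1) -
        z • (b.repr v 0 • b 0 + b.repr v 1 • b 1) =
        (b.repr v 0 * x + b.repr v 1 * y - z * b.repr v 0) • b 0 := by module
    rw [e]
    exact L.smul_mem _ hb0
  have hzz := h P hP L b hb hI σ hσ z hzL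
  refine ⟨x, z, fun w hw => ?_, hzL, fun n a ha => ?_⟩
  · rw [hb] at hw
    obtain ⟨c, rfl⟩ := Submodule.mem_span_singleton.mp hw
    rw [map_smul, ← hx, smul_comm]
  · have hd : LinearMap.det (ρ.ρ σ) = x * z := by
      rw [← LinearMap.det_toMatrix b, Matrix.det_fin_two]
      simp only [LinearMap.toMatrix_apply, ← hx, h1, map_smul, map_add, Module.Basis.repr_self,
        Finsupp.smul_apply, Finsupp.add_apply, smul_eq_mul, Finsupp.single_apply]
      simp
    have h2 := hdet.2 n σ a ha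
    rw [hd] at h2
    have e : x - (a : T) * z = (x * z - a) * z := by linear_combination (-x) * hzz
    rw [e]
    exact Ideal.mul_mem_right _ _ h2

end Strict

section Final

variable {N p : ℕ} [NeZero N] {S : Finset ℕ}
  {J : Type*} [AddCommGroup J] [Module HeckeAlg J] [DistribMulAction GQ J]
  [SMulCommClass GQ HeckeAlg J]
  {T : Type} [CommRing T] [IsLocalRing T] [IsNoetherianRing T]

omit [Module HeckeAlg J] [SMulCommClass GQ HeckeAlg J] in
lemma sq_sub_mem {σ : GQ} {W : AddSubgroup J} (hWσ : ∀ x ∈ W, σ • x ∈ W) {U : J →+ J} {m k : ℕ}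
    (hk : ∀ x : J, p ^ m • x = 0 → σ • x - U^[k] x ∈ W) {x : J} (hx : p ^ m • x = 0)
    (hU : U (U x) = x) : σ • σ • x - x ∈ W := by
  have hkx : ∀ k : ℕ, U^[k] (U^[k] x) = x := by
    intro k
    induction k with
    | zero => rfl
    | succ k ih =>
      rw [← Function.iterate_add_apply, show k + 1 + (k + 1) = k + k + 2 by ring,
        Function.iterate_add_apply]
      have : U^[2] x = x := hU
      rw [this, Function.iterate_add_apply, ih]
  have htor : p ^ m • (U^[k] x) = 0 := by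
    have h1 : ∀ k : ℕ, ∀ y : J, U^[k] (p ^ m • y) = p ^ m • U^[k] y := by
      intro k
      induction k with
      | zero => intro y; rfl
      | succ k ih => intro y; rw [Function.iterate_succ_apply', ih, map_nsmul,
          Function.iterate_succ_apply']
    rw [← h1, hx]
    have : ∀ k : ℕ, U^[k] (0 : J) = 0 := by
      intro k
      induction k with
      | zero => rfl
      | succ k ih => rw [Function.iterate_succ_apply', ih, map_zero]
    exact this k
  have h1 := hWσ _ (hk x hx)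
  have h2 := hk _ htor
  rw [hkx] at h2
  have h3 := W.add_mem h1 h2
  rw [smul_sub, sub_add_sub_cancel] at h3
  exact h3

/-- **(SO), formal form** : `ρ` is strictly ordinary at `p` as soon as the Hecke algebra acts
faithfully (through `π`) on a part `Y` of the torsion on which `σ² = 1` modulo `W`. -/
theorem isStrictOrdinaryAt_of_new (hJ : ESInput N p (↑S : Set ℕ) J) (hp : p.Prime) (hp2 : p ≠ 2)
    (hpS : p ∈ S) (hpT : (p : T) ∈ IsLocalRing.maximalIdeal T)
    (hNS : ∀ q : ℕ, q.Prime → q ∣ N → q ∈ S) (hfin : {x : J | p • x = 0}.Finite)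
    {π : heckeAlgebra N 2 (↑S : Set ℕ) →+* T} {ρ : GaloisRepAdic T}
    (hfrob : HasFrobCharpoly π ρ) (habs : ρ.residual.IsAbsolutelyIrreducible)
    (hres : (GaloisRepAdic.ofResidualGaloisRep ρ.residual).IsOrdinaryAt p)
    (hord : ρ.IsOrdinaryAt p)
    (Φ : Set (J →+ J)) (hwH : ∀ w ∈ Φ, ∀ (t : HeckeAlgS (↑S : Set ℕ)) (x : J),
      w (inclS (↑S : Set ℕ) t • x) = inclS (↑S : Set ℕ) t • w x)
    (Y : AddSubgroup J) (hYG : ∀ g : GQ, ∀ x ∈ Y, g • x ∈ Y)
    (hYH : ∀ t : HeckeAlgS (↑S : Set ℕ), ∀ x ∈ Y, inclS (↑S : Set ℕ) t • x ∈ Y)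
    (hYw : ∀ w ∈ Φ, ∀ x ∈ Y, w x ∈ Y)
    (hfaith : ∀ n : ℕ, ∃ m : ℕ, ∀ t : HeckeAlgS (↑S : Set ℕ),
      (∀ x ∈ Y, p ^ m • x = 0 → inclS (↑S : Set ℕ) t • x = 0) →
        π (evS N (↑S : Set ℕ) t) ∈ Ideal.span {(p : T) ^ n})
    (U : J →+ J) (hU : ∀ x ∈ Y, U (U x) = x)
    (hW : ∀ P : ValuationSubring (AlgebraicClosure ℚ), P.LiesOverPrime p → ∃ W : AddSubgroup J,
      (∀ g ∈ P.decompositionSubgroup ℚ, ∀ x ∈ W, g • x ∈ W) ∧
      (∀ τ ∈ P.inertiaSubgroupIn ℚ, ∀ m : ℕ, ∀ x : J, p ^ m • x = 0 → τ • x - x ∈ W) ∧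
      GeoInput p (↑S : Set ℕ) J P W Φ ∧
      (∀ σ ∈ P.decompositionSubgroup ℚ, ∀ m : ℕ, ∃ k : ℕ, ∀ x : J, p ^ m • x = 0 →
        σ • x - U^[k] x ∈ W)) :
    ρ.IsStrictOrdinaryAt p := by
  have hdet := detIsCyclotomic hfrob hp hpS hpT hNS
  refine isStrictOrdinaryAt_of_sq hord hdet fun P hP L b hb hI σ hσ z hz => ?_
  obtain ⟨W, hWD, hWI, hgeo, hWU⟩ := hW P hP
  have h := quotient_relation hJ hp hp2 hpS hpT hNS hfrob habs hP hWD hWI hYG
    (small_of_geo hJ hp hp2 hpS hpT hNS hfin hfrob habs hres Φ hwH hP hgeo Y hYG hYH hYw hfaith)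
    (σ := σ) (X ^ 2 - 1) (fun m x hx => by
      obtain ⟨k, hk⟩ := hWU σ hσ m
      have h1 := sq_sub_mem (hWD σ hσ) hk x.2 (hU _ hx)
      simpa [pow_two] using h1) hb hI hz
  rw [map_sub, map_pow, aeval_X, map_one, sub_eq_zero, pow_two] at h
  exact h

omit [Module HeckeAlg J] [SMulCommClass GQ HeckeAlg J] in
lemma sum_mem_of_pow {σ : GQ} {W Y : AddSubgroup J} (hWσ : ∀ x ∈ W, σ • x ∈ W) {U : J →+ J}
    (hYU : ∀ x ∈ Y, U x ∈ Y) (hk : ∀ x ∈ Y, σ • x - U x ∈ W) {x : J} (hx : x ∈ Y) (Q : ℤ[X])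
    (hQ : (Q.sum fun j c => c • (U^[j] x)) ∈ W) : (Q.sum fun j c => c • (σ ^ j • x)) ∈ W := by
  have h1 : ∀ (j : ℕ) (x : J), x ∈ Y → σ ^ j • x - U^[j] x ∈ W := by
    intro j
    induction j with
    | zero => intro x _; simp
    | succ j ih =>
      intro x hx
      have h2 : ∀ j : ℕ, ∀ w ∈ W, σ ^ j • w ∈ W := by
        intro j
        induction j with
        | zero => intro w hw; simpa using hw
        | succ j ih' => intro w hw; rw [pow_succ, mul_smul]; exact ih' _ (hWσ _ hw)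
      have h3 := h2 j _ (hk x hx)
      have h4 := ih _ (hYU x hx)
      have h5 := W.add_mem h3 h4
      rw [smul_sub, sub_add_sub_cancel, ← mul_smul, ← pow_succ] at h5
      rw [Function.iterate_succ_apply]
      exact h5
  have h6 : (Q.sum fun j c => c • (σ ^ j • x)) = (Q.sum fun j c => c • (U^[j] x)) +
      Q.sum fun j c => c • (σ ^ j • x - U^[j] x) := by
    rw [Polynomial.sum_def, Polynomial.sum_def, Polynomial.sum_def, ← Finset.sum_add_distrib]
    refine Finset.sum_congr rfl fun j _ => ?_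
    rw [smul_sub]; abel
  rw [h6]
  refine W.add_mem hQ ?_
  rw [Polynomial.sum_def]
  exact W.sum_mem fun j _ => W.zsmul_mem (h1 j x hx) _

/-- **(LRp), formal form** : the eigenvalue of a Frobenius on the unramified quotient satisfies the
relations satisfied by `U` on `Y`. -/
theorem aeval_eq_zero_of_frobenius (hJ : ESInput N p (↑S : Set ℕ) J) (hp : p.Prime) (hp2 : p ≠ 2)
    (hpS : p ∈ S) (hpT : (p : T) ∈ IsLocalRing.maximalIdeal T)
    (hNS : ∀ q : ℕ, q.Prime → q ∣ N → q ∈ S) (hfin : {x : J | p • x = 0}.Finite)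
    {π : heckeAlgebra N 2 (↑S : Set ℕ) →+* T} {ρ : GaloisRepAdic T}
    (hfrob : HasFrobCharpoly π ρ) (habs : ρ.residual.IsAbsolutelyIrreducible)
    (hres : (GaloisRepAdic.ofResidualGaloisRep ρ.residual).IsOrdinaryAt p)
    (Φ : Set (J →+ J)) (hwH : ∀ w ∈ Φ, ∀ (t : HeckeAlgS (↑S : Set ℕ)) (x : J),
      w (inclS (↑S : Set ℕ) t • x) = inclS (↑S : Set ℕ) t • w x)
    {P : ValuationSubring (AlgebraicClosure ℚ)} (hP : P.LiesOverPrime p) {W : AddSubgroup J}
    (hWD : ∀ g ∈ P.decompositionSubgroup ℚ, ∀ x ∈ W, g • x ∈ W)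
    (hWI : ∀ τ ∈ P.inertiaSubgroupIn ℚ, ∀ m : ℕ, ∀ x : J, p ^ m • x = 0 → τ • x - x ∈ W)
    (hgeo : GeoInput p (↑S : Set ℕ) J P W Φ) (Y : AddSubgroup J)
    (hYG : ∀ g : GQ, ∀ x ∈ Y, g • x ∈ Y)
    (hYH : ∀ t : HeckeAlgS (↑S : Set ℕ), ∀ x ∈ Y, inclS (↑S : Set ℕ) t • x ∈ Y)
    (hYw : ∀ w ∈ Φ, ∀ x ∈ Y, w x ∈ Y)
    (hfaith : ∀ n : ℕ, ∃ m : ℕ, ∀ t : HeckeAlgS (↑S : Set ℕ),
      (∀ x ∈ Y, p ^ m • x = 0 → inclS (↑S : Set ℕ) t • x = 0) →
        π (evS N (↑S : Set ℕ) t) ∈ Ideal.span {(p : T) ^ n})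
    {σ : GQ} (hσ : σ ∈ P.decompositionSubgroup ℚ) (U : J →+ J) (hYU : ∀ x ∈ Y, U x ∈ Y)
    (hWU : ∀ x ∈ Y, σ • x - U x ∈ W) (Q : ℤ[X])
    (hQ : ∀ x ∈ Y, (Q.sum fun j c => c • (U^[j] x)) ∈ W)
    {L : Submodule T ρ.V} {b : Module.Basis (Fin 2) T ρ.V} (hb : L = T ∙ b 0)
    (hLI : ∀ τ ∈ P.inertiaSubgroupIn ℚ, ∀ v : ρ.V, ρ.ρ τ v - v ∈ L) {z : T}
    (hz : ∀ v : ρ.V, ρ.ρ σ v - z • v ∈ L) : aeval z Q = 0 :=
  quotient_relation hJ hp hp2 hpS hpT hNS hfrob habs hP hWD hWI hYG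
    (small_of_geo hJ hp hp2 hpS hpT hNS hfin hfrob habs hres Φ hwH hP hgeo Y hYG hYH hYw hfaith)
    Q (fun m x hx => by
      rw [coe_aeval_actTors]
      exact sum_mem_of_pow (hWD σ hσ) hYU hWU hx Q (hQ _ hx)) hb hLI hz

end Final

end Fermat.Agent.SO

end
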