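import Fermat.Agent.SO.RelW
import Fermat.Agent.S34.Descent

/-!
# The operator `U_q = α^* α_* w - w` on `J₀(mq)` and the relation with characters
-/

set_option autoImplicit false

open UpperHalfPlane Function Filter Topology ModularForm CongruenceSubgroup Asymptotics
open Matrix.SpecialLinearGroup
open scoped Manifold MatrixGroups

noncomputable section

namespace Fermat.Agent.SO

open Fermat.Agent.X0Emb Fermat.Agent.ModFun AlgebraicCurve ModularCurve Fermat.Agent.HeckePar
open Fermat.Agent.GalRep Fermat.Agent.TwoGauss Fermat.Agent.Ribet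
open Fermat.Agent.S34aux (pullN pullN_mk intN fiN pullDegZero coe_pullDegZero)
open Fermat.Agent.QX4 (pushA pushA_mk intA pushDegZero coe_pushDegZero push_div)
open Fermat.Agent.TEll (finAlpha nfAlpha normAlong secNorm)
open Fermat.Agent.RR (div div_apply)

local notation "K" => AlgebraicClosure ℚ

variable {m q : ℕ} [NeZero m] [NeZero q]

theorem isKummer_pushA {n : ℕ} {x : JZero (m * q)} {h : modularFunctionFieldBar (m * q)}
    (hx : IsKummer n x h) :
    IsKummer n (pushA m q x) (normAlong (heckeAlphaBar K m q) h) := by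
  obtain ⟨D, rfl, h0, hD⟩ := hx
  refine ⟨pushDegZero (heckeAlphaBar K m q) (intA m q) D, (pushA_mk D).symm,
    Fermat.Agent.TEll.normAlong_ne_zero _ (finAlpha m q) h0, fun v => ?_⟩
  have h1 : (n : ℤ) • (D : Divisor K (modularFunctionFieldBar (m * q))) = div h := by
    ext v
    rw [Finsupp.smul_apply, div_apply, ← hD v, smul_eq_mul]
  have h2 := congrArg (Divisor.pushforwardAlong (heckeAlphaBar K m q) (intA m q)) h1
  rw [map_zsmul, push_div _ (intA m q) (finAlpha m q) (nfAlpha m q) h0] at h2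
  have h3 := DFunLike.congr_fun h2 v
  rw [Finsupp.smul_apply, div_apply, smul_eq_mul] at h3
  rw [coe_pushDegZero]
  exact h3

theorem isKummer_pullN {n : ℕ} {x : JZero m} {h : modularFunctionFieldBar m}
    (hx : IsKummer n x h) : IsKummer n (pullN m q x) (heckeAlphaBar K m q h) := by
  obtain ⟨D, rfl, h0, hD⟩ := hx
  refine ⟨pullDegZero (heckeAlphaBar K m q) (intN m q) (fiN m q) D, (pullN_mk m q D).symm,
    by simpa using h0, fun v => ?_⟩
  have h1 : (n : ℤ) • (D : Divisor K (modularFunctionFieldBar m)) = div h := by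
    ext v
    rw [Finsupp.smul_apply, div_apply, ← hD v, smul_eq_mul]
  have h2 := congrArg (Divisor.pullbackAlong (heckeAlphaBar K m q) (intN m q)) h1
  rw [map_zsmul, Fermat.Agent.HeckeComm.pullbackAlong_div] at h2
  have h3 := DFunLike.congr_fun h2 v
  rw [Finsupp.smul_apply, div_apply, smul_eq_mul] at h3
  rw [coe_pullDegZero]
  exact h3

variable (hq : q.Prime) (hm : ¬ q ∣ m)

/-- `U_q = α^* α_* w - w` on `J₀(mq)`. -/
def UJ : JZero (m * q) →+ JZero (m * q) :=
  (pullN m q).comp ((pushA m q).comp (QX4.wJ hq hm)) - QX4.wJ hq hm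

theorem UJ_apply (x : JZero (m * q)) :
    UJ hq hm x = pullN m q (pushA m q (QX4.wJ hq hm x)) - QX4.wJ hq hm x := rfl

/-- The function of `U_q x`. -/
def uFun (h : modularFunctionFieldBar (m * q)) : modularFunctionFieldBar (m * q) :=
  heckeAlphaBar K m q (normAlong (heckeAlphaBar K m q) (wq hq hm h)) / wq hq hm h

theorem isKummer_UJ {n : ℕ} {x : JZero (m * q)} {h : modularFunctionFieldBar (m * q)}
    (hx : IsKummer n x h) : IsKummer n (UJ hq hm x) (uFun hq hm h) := by
  have h1 := isKummer_wJ hq hm hx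
  exact (isKummer_pullN (isKummer_pushA h1)).div h1

theorem coe_uFun {h : modularFunctionFieldBar (m * q)} (h0 : h ≠ 0) :
    ((uFun hq hm h : modularFunctionFieldBar (m * q)) : LaurentSeries K) =
      secNorm K q (h : LaurentSeries K) := by
  have hw0 : wq hq hm h ≠ 0 := by simpa using h0
  have hw0' : ((wq hq hm h : modularFunctionFieldBar (m * q)) : LaurentSeries K) ≠ 0 :=
    fun h1 => hw0 (Subtype.ext h1)
  have e : ((uFun hq hm h : modularFunctionFieldBar (m * q)) : LaurentSeries K) =
      ((heckeAlphaBar K m q (normAlong (heckeAlphaBar K m q) (wq hq hm h)) :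
        modularFunctionFieldBar (m * q)) : LaurentSeries K) /
        ((wq hq hm h : modularFunctionFieldBar (m * q)) : LaurentSeries K) := rfl
  rw [e, coe_heckeAlphaBar, QX4.coe_normAlong_bar hq hm, Fermat.Agent.TwoGauss.wq_wq hq hm,
    mul_div_cancel_left₀ _ hw0']

/-- **The relation and the operator `U_q`.** -/
theorem rel_U [Fact q.Prime] {ι : K →+* ℂ} {n : ℕ} {x : JZero (m * q)}
    {χ : Gamma0 (m * q) →* ℂˣ} (hx : Rel ι (m * q) n x χ) :
    Rel ι (m * q) n (UJ hq hm x) ((heckeSys (m * q) q).transfer χ) := by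
  obtain ⟨h, g, h1, h2, h3⟩ := hx
  refine ⟨uFun hq hm h, (heckeSys (m * q) q).mulOp g, isKummer_UJ hq hm h1, h2.mulOp, ?_⟩
  rw [← GalRep.mulOp_pow, coe_uFun hq hm h1.ne_zero, Fermat.Agent.TEll.coeffMap_secNorm]
  exact lexp_mulOp_of_dvd (Dvd.intro_left m rfl) h3

end Fermat.Agent.SO

end
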